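/-
helper12 (P-S44, block C3, leaf C3-SLOPE, independent SECOND of helper41's `R2/Slope/*`;
Mathlib only).

Abstract "side datum" at one branch of a node and the UNIQUE slope function attached to it.

`E` a field (a function field), `iL : L →+* E` the constants, `W` a valuation subring of `E`
(the Gauss valuation of one component), `R` a subring of `E` (the node ring), `o : E → ℤ` an
order function on the elements of `R` which are units of `W` (the order of the reduction at the
closed point of `R / (u)`).

* `IsSlope iL W sl` : `sl : E → ℤ` is additive on products of nonzero elements, kills the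
  constants and the elements congruent to `1` modulo the maximal ideal of `W`.
* `SideDatum iL W R o` : the axioms (o1) `o_mul`, (o2) `o_congr`, (D) `dense`, (Sc) `scal`,
  (K) `const` of note 2653.
* `exists_unique_slope` : under a side datum there is exactly one slope function which equals
  `o` on the elements of `R` that are units of `W`.
* `IsSlope.eq_of_eqOn` : uniqueness alone, for two slope functions (needs only (D) and (Sc)).
-/
import Mathlib

set_option autoImplicit false

namespace Fermat.Agent.S40x.R2.SlopeB.Side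

variable {L E : Type*} [Field L] [Field E]

/-! ### valuation bookkeeping -/

section Val

variable {W : ValuationSubring E}

theorem ne_zero_of_val_eq_one {x : E} (h : W.valuation x = 1) : x ≠ 0 := by
  rintro rfl
  rw [map_zero] at h
  exact zero_ne_one h

theorem val_mul_eq_one {x y : E} (hx : W.valuation x = 1) (hy : W.valuation y = 1) :
    W.valuation (x * y) = 1 := by
  rw [map_mul, hx, hy, one_mul]

theorem val_inv_eq_one {x : E} (hx : W.valuation x = 1) : W.valuation x⁻¹ = 1 := by
  rw [map_inv₀, hx, inv_one]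

theorem val_mul_lt_one_left {x y : E} (hx : W.valuation x ≤ 1) (hy : W.valuation y < 1) :
    W.valuation (x * y) < 1 := by
  rw [map_mul, mul_comm]
  exact mul_lt_one_of_lt_of_le hy hx

theorem val_mul_lt_one_right {x y : E} (hx : W.valuation x < 1) (hy : W.valuation y ≤ 1) :
    W.valuation (x * y) < 1 := by
  rw [map_mul]
  exact mul_lt_one_of_lt_of_le hx hy

theorem val_add_lt_one {x y : E} (hx : W.valuation x < 1) (hy : W.valuation y < 1) :
    W.valuation (x + y) < 1 :=
  Valuation.map_add_lt _ hx hy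

theorem val_sub_lt_one {x y : E} (hx : W.valuation x < 1) (hy : W.valuation y < 1) :
    W.valuation (x - y) < 1 :=
  Valuation.map_sub_lt _ hx hy

theorem val_neg_lt_one {x : E} (hx : W.valuation x < 1) : W.valuation (-x) < 1 := by
  rwa [Valuation.map_neg]

/-- an element congruent to a unit is a unit -/
theorem val_eq_one_of_sub_lt {x y : E} (hx : W.valuation x = 1) (h : W.valuation (y - x) < 1) :
    W.valuation y = 1 := by
  have : y = x + (y - x) := by ring
  rw [this, Valuation.map_add_eq_of_lt_left _ (by rw [hx]; exact h), hx]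

end Val

/-! ### slope functions -/

/-- `sl` is a slope function of `(E, W)` over the constants `iL : L →+* E`. -/
structure IsSlope (iL : L →+* E) (W : ValuationSubring E) (sl : E → ℤ) : Prop where
  map_zero : sl 0 = 0
  map_mul : ∀ f g : E, f ≠ 0 → g ≠ 0 → sl (f * g) = sl f + sl g
  map_const : ∀ c : L, sl (iL c) = 0
  map_near_one : ∀ f : E, W.valuation (f - 1) < 1 → sl f = 0

namespace IsSlope

variable {iL : L →+* E} {W : ValuationSubring E} {sl : E → ℤ}

theorem map_one (h : IsSlope iL W sl) : sl 1 = 0 := by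
  have := h.map_const 1
  rwa [_root_.map_one] at this

theorem map_inv (h : IsSlope iL W sl) (f : E) : sl f⁻¹ = -sl f := by
  by_cases hf : f = 0
  · rw [hf, inv_zero, h.map_zero, neg_zero]
  · have := h.map_mul f f⁻¹ hf (inv_ne_zero hf)
    rw [mul_inv_cancel₀ hf, h.map_one] at this
    omega

theorem map_div (h : IsSlope iL W sl) {f g : E} (hf : f ≠ 0) (hg : g ≠ 0) :
    sl (f / g) = sl f - sl g := by
  rw [div_eq_mul_inv, h.map_mul f g⁻¹ hf (inv_ne_zero hg), h.map_inv]
  ring

theorem map_pow (h : IsSlope iL W sl) (f : E) (n : ℕ) : sl (f ^ n) = n * sl f := by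
  by_cases hf : f = 0
  · rcases Nat.eq_zero_or_pos n with rfl | hn
    · rw [pow_zero, h.map_one]; simp
    · rw [hf, zero_pow hn.ne', h.map_zero, mul_zero]
  · induction n with
    | zero => rw [pow_zero, h.map_one]; simp
    | succ n ih =>
      rw [pow_succ, h.map_mul _ _ (pow_ne_zero n hf) hf, ih]
      push_cast
      ring

theorem map_zpow (h : IsSlope iL W sl) (f : E) (n : ℤ) : sl (f ^ n) = n * sl f := by
  obtain ⟨m, rfl | rfl⟩ := n.eq_nat_or_neg
  · rw [zpow_natCast, h.map_pow]
  · rw [zpow_neg, zpow_natCast, h.map_inv, h.map_pow]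
    ring

/-- congruent units have the same slope -/
theorem congr (h : IsSlope iL W sl) {f g : E} (hf : W.valuation f = 1)
    (hfg : W.valuation (g - f) < 1) : sl g = sl f := by
  have hf0 : f ≠ 0 := ne_zero_of_val_eq_one hf
  have hg1 : W.valuation g = 1 := val_eq_one_of_sub_lt hf hfg
  have hg0 : g ≠ 0 := ne_zero_of_val_eq_one hg1
  have hq : W.valuation (g / f - 1) < 1 := by
    have : g / f - 1 = (g - f) * f⁻¹ := by field_simp
    rw [this]
    exact val_mul_lt_one_right hfg (val_inv_eq_one hf).le
  have := h.map_near_one _ hq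
  rw [h.map_div hg0 hf0] at this
  omega

/-- the slope of `x` computed from a constant normalisation and a fraction of elements on which
the slope is known -/
theorem eq_sub_of_approx (h : IsSlope iL W sl) {x : E} {c : L} {r1 r2 : E}
    (hr1 : W.valuation r1 = 1) (hr2 : W.valuation r2 = 1)
    (happ : W.valuation (iL c * x * r2 - r1) < 1) : sl x = sl r1 - sl r2 := by
  have hr20 : r2 ≠ 0 := ne_zero_of_val_eq_one hr2
  have hy1 : W.valuation (iL c * x * r2) = 1 := val_eq_one_of_sub_lt hr1 happ
  have hy0 : iL c * x * r2 ≠ 0 := ne_zero_of_val_eq_one hy1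
  have hcx0 : iL c * x ≠ 0 := left_ne_zero_of_mul hy0
  have hc0 : iL c ≠ 0 := left_ne_zero_of_mul hcx0
  have hx0 : x ≠ 0 := right_ne_zero_of_mul hcx0
  have h1 := h.congr hr1 happ
  rw [h.map_mul _ _ hcx0 hr20, h.map_mul _ _ hc0 hx0, h.map_const] at h1
  omega

end IsSlope

/-! ### the side datum -/

/-- The axioms of a side datum (note 2653): `R0 := {r ∈ R | W.valuation r = 1}`. -/
structure SideDatum (iL : L →+* E) (W : ValuationSubring E) (R : Subring E) (o : E → ℤ) :
    Prop where
  /-- (o1) additivity on `R0` -/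
  o_mul : ∀ r ∈ R, ∀ r' ∈ R, W.valuation r = 1 → W.valuation r' = 1 → o (r * r') = o r + o r'
  /-- (o2) `o` only depends on the residue class -/
  o_congr : ∀ r ∈ R, ∀ r' ∈ R, W.valuation r = 1 → W.valuation r' = 1 →
    W.valuation (r - r') < 1 → o r = o r'
  /-- (D) the residue field of `W` is the fraction field of the image of `R` -/
  dense : ∀ x : E, W.valuation x = 1 → ∃ r1 ∈ R, ∃ r2 ∈ R, W.valuation r1 = 1 ∧
    W.valuation r2 = 1 ∧ W.valuation (x * r2 - r1) < 1
  /-- (Sc) every nonzero element is a constant times a unit of `W` -/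
  scal : ∀ x : E, x ≠ 0 → ∃ c : L, W.valuation (iL c * x) = 1
  /-- (K) residues of constants have order `0` -/
  const : ∀ c : L, W.valuation (iL c) = 1 → ∀ r1 ∈ R, ∀ r2 ∈ R, W.valuation r1 = 1 →
    W.valuation r2 = 1 → W.valuation (iL c * r2 - r1) < 1 → o r1 = o r2

namespace SideDatum

variable {iL : L →+* E} {W : ValuationSubring E} {R : Subring E} {o : E → ℤ}

theorem o_one (hD : SideDatum iL W R o) : o 1 = 0 := by
  have := hD.o_mul 1 R.one_mem 1 R.one_mem (map_one _) (map_one _)
  rw [mul_one] at this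
  omega

/-- **well-definedness**: the value `o r1 - o r2` does not depend on the normalising constant nor
on the approximating fraction. -/
theorem wd (hD : SideDatum iL W R o) {x : E} {c c' : L} {r1 r2 r1' r2' : E}
    (hr1 : r1 ∈ R) (hr2 : r2 ∈ R) (hr1' : r1' ∈ R) (hr2' : r2' ∈ R)
    (hv1 : W.valuation r1 = 1) (hv2 : W.valuation r2 = 1)
    (hv1' : W.valuation r1' = 1) (hv2' : W.valuation r2' = 1)
    (happ : W.valuation (iL c * x * r2 - r1) < 1)
    (happ' : W.valuation (iL c' * x * r2' - r1') < 1) :
    o r1 - o r2 = o r1' - o r2' := by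
  have hy1 : W.valuation (iL c * x * r2) = 1 := val_eq_one_of_sub_lt hv1 happ
  have hy1' : W.valuation (iL c' * x * r2') = 1 := val_eq_one_of_sub_lt hv1' happ'
  have hcx : W.valuation (iL c * x) = 1 := by
    rw [map_mul, hv2, mul_one] at hy1
    exact hy1
  have hcx' : W.valuation (iL c' * x) = 1 := by
    rw [map_mul, hv2', mul_one] at hy1'
    exact hy1'
  have hcx0 : iL c * x ≠ 0 := ne_zero_of_val_eq_one hcx
  have hc0 : iL c ≠ 0 := left_ne_zero_of_mul hcx0
  have hx0 : x ≠ 0 := right_ne_zero_of_mul hcx0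
  have hcL : c ≠ 0 := by
    rintro rfl
    exact hc0 (map_zero iL)
  -- the constant `γ = c' / c`
  set γ : L := c' / c with hγ
  have hγE : iL γ = iL c' / iL c := by rw [hγ, map_div₀]
  have hγy : iL γ * (iL c * x) = iL c' * x := by
    rw [hγE]
    field_simp
  have hγ1 : W.valuation (iL γ) = 1 := by
    have := congrArg W.valuation hγy
    rw [map_mul, hcx, mul_one, hcx'] at this
    exact this
  -- the key congruence
  have hkey : W.valuation (iL γ * (r1 * r2') - r1' * r2) < 1 := by
    have e : iL γ * (r1 * r2') - r1' * r2 =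
        -(iL γ * r2' * (iL c * x * r2 - r1)) + r2 * (iL c' * x * r2' - r1') := by
      rw [← hγy]
      ring
    rw [e]
    refine val_add_lt_one (val_neg_lt_one ?_) ?_
    · exact val_mul_lt_one_left (val_mul_eq_one hγ1 hv2').le happ
    · exact val_mul_lt_one_left hv2.le happ'
  have h1 := hD.const γ hγ1 (r1' * r2) (R.mul_mem hr1' hr2) (r1 * r2') (R.mul_mem hr1 hr2')
    (val_mul_eq_one hv1' hv2) (val_mul_eq_one hv1 hv2') hkey
  rw [hD.o_mul r1' hr1' r2 hr2 hv1' hv2, hD.o_mul r1 hr1 r2' hr2' hv1 hv2'] at h1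
  omega

/-- the approximation data of a nonzero element -/
theorem exists_data (hD : SideDatum iL W R o) {x : E} (hx : x ≠ 0) :
    ∃ (c : L) (r1 r2 : E), r1 ∈ R ∧ r2 ∈ R ∧ W.valuation r1 = 1 ∧ W.valuation r2 = 1 ∧
      W.valuation (iL c * x * r2 - r1) < 1 := by
  obtain ⟨c, hc⟩ := hD.scal x hx
  obtain ⟨r1, hr1, r2, hr2, hv1, hv2, happ⟩ := hD.dense _ hc
  exact ⟨c, r1, r2, hr1, hr2, hv1, hv2, happ⟩

open Classical in
/-- **the slope function of a side datum** -/
noncomputable def slope (hD : SideDatum iL W R o) (x : E) : ℤ :=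
  if hx : x = 0 then 0 else
    o (hD.exists_data hx).choose_spec.choose - o (hD.exists_data hx).choose_spec.choose_spec.choose

theorem slope_zero (hD : SideDatum iL W R o) : hD.slope 0 = 0 := by
  rw [slope, dif_pos rfl]

/-- the slope can be computed with any data -/
theorem slope_eq (hD : SideDatum iL W R o) {x : E} {c : L} {r1 r2 : E}
    (hr1 : r1 ∈ R) (hr2 : r2 ∈ R) (hv1 : W.valuation r1 = 1) (hv2 : W.valuation r2 = 1)
    (happ : W.valuation (iL c * x * r2 - r1) < 1) : hD.slope x = o r1 - o r2 := by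
  have hx : x ≠ 0 := by
    rintro rfl
    rw [mul_zero, zero_mul, zero_sub, Valuation.map_neg, hv1] at happ
    exact lt_irrefl _ happ
  rw [slope, dif_neg hx]
  obtain ⟨h1, h2, h3, h4, h5⟩ := (hD.exists_data hx).choose_spec.choose_spec.choose_spec
  exact hD.wd h1 h2 hr1 hr2 h3 h4 hv1 hv2 h5 happ

theorem slope_of_mem (hD : SideDatum iL W R o) {r : E} (hr : r ∈ R) (hv : W.valuation r = 1) :
    hD.slope r = o r := by
  have happ : W.valuation (iL 1 * r * 1 - r) < 1 := by
    rw [map_one, one_mul, mul_one, sub_self, map_zero]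
    exact zero_lt_one
  rw [hD.slope_eq hr R.one_mem hv (map_one _) happ, hD.o_one, sub_zero]

theorem isSlope_slope (hD : SideDatum iL W R o) : IsSlope iL W hD.slope := by
  refine ⟨hD.slope_zero, ?_, ?_, ?_⟩
  · intro f g hf hg
    obtain ⟨c, r1, r2, hr1, hr2, hv1, hv2, happ⟩ := hD.exists_data hf
    obtain ⟨c', r1', r2', hr1', hr2', hv1', hv2', happ'⟩ := hD.exists_data hg
    have hy1 : W.valuation (iL c * f * r2) = 1 := val_eq_one_of_sub_lt hv1 happ
    have hprod : W.valuation (iL (c * c') * (f * g) * (r2 * r2') - r1 * r1') < 1 := by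
      have e : iL (c * c') * (f * g) * (r2 * r2') - r1 * r1' =
          (iL c * f * r2) * (iL c' * g * r2' - r1') + r1' * (iL c * f * r2 - r1) := by
        rw [map_mul]
        ring
      rw [e]
      exact val_add_lt_one (val_mul_lt_one_left hy1.le happ')
        (val_mul_lt_one_left hv1'.le happ)
    rw [hD.slope_eq (R.mul_mem hr1 hr1') (R.mul_mem hr2 hr2') (val_mul_eq_one hv1 hv1')
      (val_mul_eq_one hv2 hv2') hprod, hD.slope_eq hr1 hr2 hv1 hv2 happ,
      hD.slope_eq hr1' hr2' hv1' hv2' happ', hD.o_mul r1 hr1 r1' hr1' hv1 hv1',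
      hD.o_mul r2 hr2 r2' hr2' hv2 hv2']
    ring
  · intro c
    by_cases hc : c = 0
    · rw [hc, map_zero, hD.slope_zero]
    · have happ : W.valuation (iL c⁻¹ * iL c * 1 - 1) < 1 := by
        rw [← map_mul, inv_mul_cancel₀ hc, map_one, mul_one, sub_self, map_zero]
        exact zero_lt_one
      rw [hD.slope_eq R.one_mem R.one_mem (map_one _) (map_one _) happ, sub_self]
  · intro f hf
    have happ : W.valuation (iL 1 * f * 1 - 1) < 1 := by
      rw [map_one, one_mul, mul_one]
      exact hf
    rw [hD.slope_eq R.one_mem R.one_mem (map_one _) (map_one _) happ, sub_self]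

end SideDatum

/-- **uniqueness of the slope**: two slope functions which agree on the elements of `R` that are
units of `W` are equal, as soon as (D) and (Sc) hold. -/
theorem IsSlope.eq_of_eqOn {iL : L →+* E} {W : ValuationSubring E} {R : Subring E}
    {sl sl' : E → ℤ} (h : IsSlope iL W sl) (h' : IsSlope iL W sl')
    (hdense : ∀ x : E, W.valuation x = 1 → ∃ r1 ∈ R, ∃ r2 ∈ R, W.valuation r1 = 1 ∧
      W.valuation r2 = 1 ∧ W.valuation (x * r2 - r1) < 1)
    (hscal : ∀ x : E, x ≠ 0 → ∃ c : L, W.valuation (iL c * x) = 1)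
    (heq : ∀ r ∈ R, W.valuation r = 1 → sl r = sl' r) : sl = sl' := by
  funext x
  by_cases hx : x = 0
  · rw [hx, h.map_zero, h'.map_zero]
  · obtain ⟨c, hc⟩ := hscal x hx
    obtain ⟨r1, hr1, r2, hr2, hv1, hv2, happ⟩ := hdense _ hc
    rw [h.eq_sub_of_approx hv1 hv2 happ, h'.eq_sub_of_approx hv1 hv2 happ, heq r1 hr1 hv1,
      heq r2 hr2 hv2]

/-- **(side_slope)** under a side datum there is exactly one slope function extending `o`. -/
theorem exists_unique_slope {iL : L →+* E} {W : ValuationSubring E} {R : Subring E} {o : E → ℤ}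
    (hD : SideDatum iL W R o) :
    ∃! sl : E → ℤ, IsSlope iL W sl ∧ ∀ r ∈ R, W.valuation r = 1 → sl r = o r := by
  refine ⟨hD.slope, ⟨hD.isSlope_slope, fun r hr hv => hD.slope_of_mem hr hv⟩, ?_⟩
  rintro sl' ⟨h', hval⟩
  refine IsSlope.eq_of_eqOn (R := R) h' hD.isSlope_slope hD.dense hD.scal fun r hr hv => ?_
  rw [hval r hr hv, hD.slope_of_mem hr hv]

end Fermat.Agent.S40x.R2.SlopeB.Side
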