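/-
helper12 (P-S44, block C3, leaf C3-SLOPE, INSTANCE layer (a) DOWNSTAIRS; split of helper41
msg 14:02Z).

From the setting of helper47's landed `S40x/Slope/{SlopeInv,Compute}` (a valuation subring `O` of
`F / L`, a residue map `ρ : O →+* E` onto a function field `E / k` with kernel the maximal ideal,
a place `P` of `E / k`) to the side datum of `SlopeB/Side`:

* `ordAt O ρ P r := P.ord (red O ρ r)` : the order function;
* `sideDatum_of_place` : `SideDatum (algebraMap L F) O Rs (ordAt O ρ P)` for every subring `Rs`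
  which is dense in the residue field ((D), `Node/Dense`), given (Sc) and "unit constants reduce
  to nonzero constants";
* `sideDatum_of_redSetup` : the same from a `Gateway.C0.RedSetup A O k E` (`ρ = R.res`);
* `slope_eq_ord_red` : the slope of a unit `w` of `O` is `P.ord (red O ρ w)`;
* `slopeAt_eq_slope` : **comparison**: helper47's `slopeAt O₁ O₂ O ρ p x P` is the reduction modulo
  `p` of `hs.slope f` for EVERY Kummer function `f` of `x` (no normalisation needed), i.e. the `n` of
  `SlopeB.AsmAdapter.hsl_node`.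
-/
import Fermat.Agent.S40x.Slope.Compute
import Fermat.Agent.S40x.Slope.OfRedSetup
import Fermat.Agent.S40x.R2.SlopeB.Side

set_option autoImplicit false
set_option linter.unusedSectionVars false

noncomputable section

namespace Fermat.Agent.S40x.R2.SlopeB.PlaceInst

open AlgebraicCurve Fermat.Agent.Gateway.Kummer Fermat.Agent.Gateway.C0
  Fermat.Agent.S40x.Slope.UnitTwo Fermat.Agent.S40x.Slope.SlopeInv
  Fermat.Agent.S40x.Slope.Compute Fermat.Agent.S40x.R2.SlopeB.Side

variable {L : Type*} [Field L] {F : Type*} [Field F] [Algebra L F]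
  {k : Type*} [Field k] {E : Type*} [Field E] [Algebra k E]
  {O : ValuationSubring F} {ρ : O →+* E}

/-- the order at `P` of the reduction -/
def ordAt (O : ValuationSubring F) (ρ : O →+* E) (P : Place k E) : F → ℤ :=
  fun r => P.ord (red O ρ r)

theorem ordAt_apply (P : Place k E) (r : F) : ordAt O ρ P r = P.ord (red O ρ r) := rfl

/-- reductions of congruent elements agree -/
theorem red_eq_of_sub_lt (hker : ∀ x : O, ρ x = 0 ↔ O.valuation (x : F) < 1) {r r' : F}
    (hr : r ∈ O) (hr' : r' ∈ O) (h : O.valuation (r - r') < 1) : red O ρ r = red O ρ r' := by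
  rw [red_of_mem hr, red_of_mem hr', ← sub_eq_zero, ← map_sub]
  exact (hker _).mpr h

/-- the order function is additive on units -/
theorem ordAt_mul (hker : ∀ x : O, ρ x = 0 ↔ O.valuation (x : F) < 1) (P : Place k E) {r r' : F}
    (h : O.valuation r = 1) (h' : O.valuation r' = 1) :
    ordAt O ρ P (r * r') = ordAt O ρ P r + ordAt O ρ P r' := by
  rw [ordAt_apply, ordAt_apply, ordAt_apply, red_mul (mem_of_val_eq_one h) (mem_of_val_eq_one h'),
    P.ord_mul (red_ne_zero hker h) (red_ne_zero hker h')]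

/-- **the side datum of a place of the residue field** -/
theorem sideDatum_of_place (hker : ∀ x : O, ρ x = 0 ↔ O.valuation (x : F) < 1)
    (hscal : ∀ f : F, f ≠ 0 → ∃ c : L, c ≠ 0 ∧ O.valuation (c • f) = 1)
    (hconstred : ∀ c : L, O.valuation (algebraMap L F c) = 1 →
      ∃ a : k, a ≠ 0 ∧ red O ρ (algebraMap L F c) = algebraMap k E a)
    (P : Place k E) (Rs : Subring F)
    (hdense : ∀ x : F, O.valuation x = 1 → ∃ r1 ∈ Rs, ∃ r2 ∈ Rs, O.valuation r1 = 1 ∧
      O.valuation r2 = 1 ∧ O.valuation (x * r2 - r1) < 1) :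
    SideDatum (algebraMap L F) O Rs (ordAt O ρ P) where
  o_mul := fun r _ r' _ h h' => ordAt_mul hker P h h'
  o_congr := fun r _ r' _ h h' hlt => by
    rw [ordAt_apply, ordAt_apply,
      red_eq_of_sub_lt hker (mem_of_val_eq_one h) (mem_of_val_eq_one h') hlt]
  dense := hdense
  scal := fun x hx => by
    obtain ⟨c, -, hc⟩ := hscal x hx
    rw [Algebra.smul_def] at hc
    exact ⟨c, hc⟩
  const := fun c hc r1 _ r2 _ h1 h2 hlt => by
    obtain ⟨a, ha, hca⟩ := hconstred c hc
    have hcm : algebraMap L F c ∈ O := mem_of_val_eq_one hc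
    have h2m : r2 ∈ O := mem_of_val_eq_one h2
    have hprod : O.valuation (algebraMap L F c * r2) = 1 := val_mul_eq_one hc h2
    have e := red_eq_of_sub_lt hker (mem_of_val_eq_one hprod) (mem_of_val_eq_one h1) hlt
    rw [red_mul hcm h2m, hca] at e
    rw [ordAt_apply, ordAt_apply, ← e,
      P.ord_mul ((map_ne_zero _).mpr ha) (red_ne_zero hker h2), ord_algebraMap_eq_zero P ha,
      zero_add]

/-- **the side datum from a `RedSetup`** -/
theorem sideDatum_of_redSetup {A : ValuationSubring L} (R : RedSetup A O k E) (P : Place k E)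
    (Rs : Subring F)
    (hdense : ∀ x : F, O.valuation x = 1 → ∃ r1 ∈ Rs, ∃ r2 ∈ Rs, O.valuation r1 = 1 ∧
      O.valuation r2 = 1 ∧ O.valuation (x * r2 - r1) < 1) :
    SideDatum (algebraMap L F) O Rs (ordAt O R.res P) := by
  refine sideDatum_of_place R.res_ker R.scal (fun c hc => ?_) P Rs hdense
  have hcO : algebraMap L F c ∈ O := mem_of_val_eq_one hc
  have hcA : c ∈ A := (Fermat.Agent.S40x.Slope.OfRedSetup.liesOver R c).mp hcO
  refine ⟨R.π ⟨c, hcA⟩, fun h0 => ?_, ?_⟩
  · have h1 : R.res ⟨algebraMap L F c, hcO⟩ = 0 := by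
      have := R.res_algebraMap ⟨c, hcA⟩
      rw [h0, map_zero] at this
      exact this
    have := (R.res_ker _).mp h1
    rw [hc] at this
    exact lt_irrefl _ this
  · rw [red_of_mem hcO]
    exact R.res_algebraMap ⟨c, hcA⟩

/-- **the slope of a unit is the order of its reduction** -/
theorem slope_eq_ord_red (hker : ∀ x : O, ρ x = 0 ↔ O.valuation (x : F) < 1) {P : Place k E}
    {Rs : Subring F} (hs : SideDatum (algebraMap L F) O Rs (ordAt O ρ P)) {w : F}
    (hw : O.valuation w = 1) : hs.slope w = P.ord (red O ρ w) := by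
  obtain ⟨r1, hr1, r2, hr2, h1, h2, hlt⟩ := hs.dense w hw
  have happ : O.valuation (algebraMap L F 1 * w * r2 - r1) < 1 := by
    rw [map_one, one_mul]
    exact hlt
  rw [hs.slope_eq hr1 hr2 h1 h2 happ, ordAt_apply, ordAt_apply]
  have hprod : O.valuation (w * r2) = 1 := val_mul_eq_one hw h2
  have e := red_eq_of_sub_lt hker (mem_of_val_eq_one hprod) (mem_of_val_eq_one h1) hlt
  rw [red_mul (mem_of_val_eq_one hw) (mem_of_val_eq_one h2)] at e
  rw [← e, P.ord_mul (red_ne_zero hker hw) (red_ne_zero hker h2)]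
  ring

/-- the slope of any nonzero element, after normalisation by a constant -/
theorem slope_eq_ord_red_const_mul (hker : ∀ x : O, ρ x = 0 ↔ O.valuation (x : F) < 1)
    {P : Place k E} {Rs : Subring F} (hs : SideDatum (algebraMap L F) O Rs (ordAt O ρ P))
    {f : F} {c : L} (hc : O.valuation (algebraMap L F c * f) = 1) :
    hs.slope f = P.ord (red O ρ (algebraMap L F c * f)) := by
  have h0 : algebraMap L F c * f ≠ 0 := ne_zero_of_val_eq_one hc
  have h := hs.isSlope_slope
  rw [← slope_eq_ord_red hker hs hc, h.map_mul _ _ (left_ne_zero_of_mul h0)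
    (right_ne_zero_of_mul h0), h.map_const, zero_add]

/-- **comparison with helper47's slope of a class**: for EVERY Kummer function `f` of `x`. -/
theorem slopeAt_eq_slope [HasPrincipalDivisors L F] [IsAlgClosed L] {O₁ O₂ : ValuationSubring F}
    {p : ℕ} (hS : SlopeData (L := L) O₁ O₂ O ρ p) {P : Place k E} {Rs : Subring F}
    (hs : SideDatum (algebraMap L F) O Rs (ordAt O ρ P)) {x : Pic0 L F} {f : F}
    (hf : IsKummerRep p x f) :
    slopeAt O₁ O₂ O ρ p x P = ((hs.slope f : ℤ) : ZMod p) := by
  obtain ⟨c, hc⟩ := hs.scal f hf.ne_zero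
  rw [slopeAt_eq_of_const_mul hS P hf hc, slopeFn, slope_eq_ord_red_const_mul hS.ker hs hc]

end Fermat.Agent.S40x.R2.SlopeB.PlaceInst
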