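/-
helper12 (P-S44, block C3, leaf C3-SLOPE, independent SECOND; Mathlib + `SlopeB/Lift`).

**(dense_lift)**: (D) upstairs from (D) downstairs and the ratio form of "the residue field of `W`
is generated by the residue of `θ`" (`ImmThetaB.exists_ratio`), when `R_s[θ] ≤ R`.

* `exists_approx_poly` : for `Q ∈ O[T]` there are `d ∈ R_s` (a unit of `O`) and `r ∈ R` with
  `Q(θ) * d ≡ r` modulo the maximal ideal of `W`.
* `dense_lift` : (D) for `(F', W, R)`.
-/
import Fermat.Agent.S40x.R2.SlopeB.Lift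

set_option autoImplicit false

namespace Fermat.Agent.S40x.R2.SlopeB.DenseLift

open Polynomial Fermat.Agent.S40x.R2.SlopeB.Side Fermat.Agent.S40x.R2.SlopeB.Lift

variable {F0 F' : Type*} [Field F0] [Field F'] [Algebra F0 F']
variable {O : ValuationSubring F0} {W : ValuationSubring F'}

/-- approximation of the partial sums of `Q(θ)` -/
theorem exists_approx_sum (hW : ∀ e : F0, algebraMap F0 F' e ∈ W ↔ e ∈ O)
    {Rs : Subring F0} {R : Subring F'} (hRs : ∀ r ∈ Rs, algebraMap F0 F' r ∈ R)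
    {θ : F'} (hθR : θ ∈ R) (hθW : θ ∈ W)
    (hdense : ∀ x : F0, O.valuation x = 1 → ∃ r1 ∈ Rs, ∃ r2 ∈ Rs, O.valuation r1 = 1 ∧
      O.valuation r2 = 1 ∧ O.valuation (x * r2 - r1) < 1)
    (a : ℕ → F0) (ha : ∀ n, a n ∈ O) (s : Finset ℕ) :
    ∃ d ∈ Rs, ∃ r ∈ R, O.valuation d = 1 ∧
      W.valuation ((∑ i ∈ s, algebraMap F0 F' (a i) * θ ^ i) * algebraMap F0 F' d - r) < 1 := by
  classical
  induction s using Finset.induction_on with
  | empty =>
    refine ⟨1, Rs.one_mem, 0, R.zero_mem, map_one _, ?_⟩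
    rw [Finset.sum_empty, zero_mul, sub_zero, map_zero]
    exact zero_lt_one
  | insert i s hi ih =>
    obtain ⟨d, hd, r, hr, hvd, happ⟩ := ih
    have hθi : W.valuation (θ ^ i) ≤ 1 :=
      (W.valuation_le_one_iff _).mpr (pow_mem hθW i)
    have hdW : W.valuation (algebraMap F0 F' d) = 1 := (val_eq_one_iff hW d).mpr hvd
    rw [Finset.sum_insert hi]
    have hle : O.valuation (a i) ≤ 1 := (O.valuation_le_one_iff _).mpr (ha i)
    rcases lt_or_eq_of_le hle with hlt | heq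
    · -- the coefficient is small: drop the term
      refine ⟨d, hd, r, hr, hvd, ?_⟩
      have e : (algebraMap F0 F' (a i) * θ ^ i + ∑ j ∈ s, algebraMap F0 F' (a j) * θ ^ j) *
          algebraMap F0 F' d - r =
          ((∑ j ∈ s, algebraMap F0 F' (a j) * θ ^ j) * algebraMap F0 F' d - r) +
            algebraMap F0 F' (a i) * (θ ^ i * algebraMap F0 F' d) := by ring
      rw [e]
      refine val_add_lt_one happ (val_mul_lt_one_right ((val_lt_one_iff hW _).mpr hlt) ?_)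
      rw [map_mul, hdW, mul_one]
      exact hθi
    · -- the coefficient is a unit: approximate it by a fraction
      obtain ⟨ρ1, hρ1, ρ2, hρ2, hw1, hw2, hρ⟩ := hdense _ heq
      have hρ2W : W.valuation (algebraMap F0 F' ρ2) = 1 := (val_eq_one_iff hW ρ2).mpr hw2
      have hρW : W.valuation (algebraMap F0 F' (a i) * algebraMap F0 F' ρ2 -
          algebraMap F0 F' ρ1) < 1 := by
        rw [← map_mul, ← map_sub, val_lt_one_iff hW]
        exact hρ
      refine ⟨d * ρ2, Rs.mul_mem hd hρ2,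
        r * algebraMap F0 F' ρ2 + algebraMap F0 F' ρ1 * algebraMap F0 F' d * θ ^ i,
        R.add_mem (R.mul_mem hr (hRs ρ2 hρ2))
          (R.mul_mem (R.mul_mem (hRs ρ1 hρ1) (hRs d hd)) (pow_mem hθR i)), ?_, ?_⟩
      · rw [map_mul, hvd, hw2, one_mul]
      · have e : (algebraMap F0 F' (a i) * θ ^ i + ∑ j ∈ s, algebraMap F0 F' (a j) * θ ^ j) *
            algebraMap F0 F' (d * ρ2) -
            (r * algebraMap F0 F' ρ2 + algebraMap F0 F' ρ1 * algebraMap F0 F' d * θ ^ i) =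
            algebraMap F0 F' ρ2 *
              ((∑ j ∈ s, algebraMap F0 F' (a j) * θ ^ j) * algebraMap F0 F' d - r) +
            (algebraMap F0 F' d * θ ^ i) *
              (algebraMap F0 F' (a i) * algebraMap F0 F' ρ2 - algebraMap F0 F' ρ1) := by
          rw [map_mul]
          ring
        rw [e]
        refine val_add_lt_one (val_mul_lt_one_left hρ2W.le happ) (val_mul_lt_one_left ?_ hρW)
        rw [map_mul, hdW, one_mul]
        exact hθi

/-- approximation of `Q(θ)` for `Q ∈ O[T]` -/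
theorem exists_approx_poly (hW : ∀ e : F0, algebraMap F0 F' e ∈ W ↔ e ∈ O)
    {Rs : Subring F0} {R : Subring F'} (hRs : ∀ r ∈ Rs, algebraMap F0 F' r ∈ R)
    {θ : F'} (hθR : θ ∈ R) (hθW : θ ∈ W)
    (hdense : ∀ x : F0, O.valuation x = 1 → ∃ r1 ∈ Rs, ∃ r2 ∈ Rs, O.valuation r1 = 1 ∧
      O.valuation r2 = 1 ∧ O.valuation (x * r2 - r1) < 1)
    (Q : F0[X]) (hQ : ∀ n, Q.coeff n ∈ O) :
    ∃ d ∈ Rs, ∃ r ∈ R, O.valuation d = 1 ∧
      W.valuation (aeval θ Q * algebraMap F0 F' d - r) < 1 := by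
  have h := exists_approx_sum hW hRs hθR hθW hdense (fun n => Q.coeff n) hQ Q.support
  have e : aeval θ Q = ∑ i ∈ Q.support, algebraMap F0 F' (Q.coeff i) * θ ^ i := by
    rw [Polynomial.aeval_def, Polynomial.eval₂_eq_sum, Polynomial.sum_def]
  rw [e]
  exact h

/-- **(dense_lift)** (D) upstairs. -/
theorem dense_lift (hW : ∀ e : F0, algebraMap F0 F' e ∈ W ↔ e ∈ O)
    {Rs : Subring F0} {R : Subring F'} (hRs : ∀ r ∈ Rs, algebraMap F0 F' r ∈ R)
    {θ : F'} (hθR : θ ∈ R) (hθW : θ ∈ W)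
    (hdense : ∀ x : F0, O.valuation x = 1 → ∃ r1 ∈ Rs, ∃ r2 ∈ Rs, O.valuation r1 = 1 ∧
      O.valuation r2 = 1 ∧ O.valuation (x * r2 - r1) < 1)
    (hratio : ∀ x ∈ W, ∃ Q₁ Q₂ : F0[X], (∀ n, Q₁.coeff n ∈ O) ∧ (∀ n, Q₂.coeff n ∈ O) ∧
      W.valuation (aeval θ Q₂) = 1 ∧ x * aeval θ Q₂ = aeval θ Q₁) :
    ∀ x : F', W.valuation x = 1 → ∃ r1 ∈ R, ∃ r2 ∈ R, W.valuation r1 = 1 ∧
      W.valuation r2 = 1 ∧ W.valuation (x * r2 - r1) < 1 := by
  intro x hx
  obtain ⟨Q₁, Q₂, hQ₁, hQ₂, hu2, hxu⟩ := hratio x ((W.valuation_le_one_iff _).mp hx.le)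
  obtain ⟨d1, hd1, s1, hs1, hvd1, happ1⟩ := exists_approx_poly hW hRs hθR hθW hdense Q₁ hQ₁
  obtain ⟨d2, hd2, s2, hs2, hvd2, happ2⟩ := exists_approx_poly hW hRs hθR hθW hdense Q₂ hQ₂
  set u1 := aeval θ Q₁ with hu1def
  set u2 := aeval θ Q₂ with hu2def
  have hd1W : W.valuation (algebraMap F0 F' d1) = 1 := (val_eq_one_iff hW d1).mpr hvd1
  have hd2W : W.valuation (algebraMap F0 F' d2) = 1 := (val_eq_one_iff hW d2).mpr hvd2
  -- `s2` is a unit
  have hs2u : W.valuation s2 = 1 := by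
    have h1 : W.valuation (s2 - u2 * algebraMap F0 F' d2) < 1 := by
      rw [← Valuation.map_neg, neg_sub]
      exact happ2
    exact val_eq_one_of_sub_lt (val_mul_eq_one hu2 hd2W) h1
  have hr2u : W.valuation (s2 * algebraMap F0 F' d1) = 1 := val_mul_eq_one hs2u hd1W
  have hkey : W.valuation (x * (s2 * algebraMap F0 F' d1) - s1 * algebraMap F0 F' d2) < 1 := by
    have e : x * (s2 * algebraMap F0 F' d1) - s1 * algebraMap F0 F' d2 =
        -(x * algebraMap F0 F' d1 * (u2 * algebraMap F0 F' d2 - s2)) +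
          algebraMap F0 F' d2 * (u1 * algebraMap F0 F' d1 - s1) := by
      rw [← hxu]
      ring
    rw [e]
    exact val_add_lt_one (val_neg_lt_one (val_mul_lt_one_left (val_mul_eq_one hx hd1W).le happ2))
      (val_mul_lt_one_left hd2W.le happ1)
  refine ⟨s1 * algebraMap F0 F' d2, R.mul_mem hs1 (hRs d2 hd2), s2 * algebraMap F0 F' d1,
    R.mul_mem hs2 (hRs d1 hd1), ?_, hr2u, hkey⟩
  have h1 : W.valuation (s1 * algebraMap F0 F' d2 - x * (s2 * algebraMap F0 F' d1)) < 1 := by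
    rw [← Valuation.map_neg, neg_sub]
    exact hkey
  exact val_eq_one_of_sub_lt (val_mul_eq_one hx hr2u) h1

end Fermat.Agent.S40x.R2.SlopeB.DenseLift
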