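/-
helper12 (P-S44, block C3, leaf C3-SLOPE, independent SECOND; Mathlib only).

Slopes of the elements appearing in the edge factorisation (`S40x/Edge/EdgeField`):

* `slope_unit` : units of the node ring have slope `0` (needs (o3) `0 ≤ o` and `R ≤ W`);
* `slope_uniformiser`, `slope_vertical` : `sl u' = 1`, `sl u = -1` when `u * u' = c * Ψ` with `c` a
  constant and `Ψ` a unit of `R`;
* `slope_edge` : `f = ε * u ^ A * u' ^ B * (g1 / g2) ^ p` gives `sl f = B - A` in `ZMod p`;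
* `slope_kummer_change` : `ft = c * fx * g ^ p` gives `sl ft = sl fx` in `ZMod p`;
* `slope_edge_of_datum` : the packaged consumer form for a side datum.
-/
import Fermat.Agent.S40x.R2.SlopeB.Side

set_option autoImplicit false

namespace Fermat.Agent.S40x.R2.SlopeB.EdgeSlope

open Fermat.Agent.S40x.R2.SlopeB.Side

variable {L E : Type*} [Field L] [Field E]
variable {iL : L →+* E} {W : ValuationSubring E} {sl : E → ℤ}

/-- units of `R` have slope zero -/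
theorem slope_unit (h : IsSlope iL W sl) {R : Subring E} {o : E → ℤ}
    (hle : ∀ r ∈ R, r ∈ W) (hnn : ∀ r ∈ R, W.valuation r = 1 → 0 ≤ o r)
    (hval : ∀ r ∈ R, W.valuation r = 1 → sl r = o r)
    {ε : E} (hε : ε ∈ R) (hεi : ε⁻¹ ∈ R) (hε0 : ε ≠ 0) : sl ε = 0 := by
  have h1 : W.valuation ε ≤ 1 := (W.valuation_le_one_iff _).mpr (hle ε hε)
  have h2 : W.valuation ε⁻¹ ≤ 1 := (W.valuation_le_one_iff _).mpr (hle _ hεi)
  have hv : W.valuation ε = 1 := by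
    refine le_antisymm h1 ?_
    rw [map_inv₀] at h2
    have hne : W.valuation ε ≠ 0 := (Valuation.ne_zero_iff _).mpr hε0
    exact (inv_le_one₀ (zero_lt_iff.mpr hne)).mp h2
  have hvi : W.valuation ε⁻¹ = 1 := val_inv_eq_one hv
  have e1 := hnn ε hε hv
  have e2 := hnn _ hεi hvi
  rw [← hval ε hε hv] at e1
  rw [← hval _ hεi hvi, h.map_inv] at e2
  omega

/-- the horizontal uniformiser has slope `1` -/
theorem slope_uniformiser {R : Subring E} {o : E → ℤ}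
    (hval : ∀ r ∈ R, W.valuation r = 1 → sl r = o r)
    {u' : E} (hu' : u' ∈ R) (hv : W.valuation u' = 1) (ho : o u' = 1) : sl u' = 1 := by
  rw [hval u' hu' hv, ho]

/-- the vertical prime has slope `-1` -/
theorem slope_vertical (h : IsSlope iL W sl) {u u' Ψ : E} {c : L} (hu' : sl u' = 1)
    (hΨ : sl Ψ = 0) (hu0 : u ≠ 0) (hu'0 : u' ≠ 0) (hc : c ≠ 0) (hΨ0 : Ψ ≠ 0)
    (hrel : u * u' = iL c * Ψ) : sl u = -1 := by
  have h1 := congrArg sl hrel
  rw [h.map_mul _ _ hu0 hu'0, h.map_mul _ _ ((map_ne_zero iL).mpr hc) hΨ0, h.map_const, hu', hΨ]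
    at h1
  omega

/-- **(SlopeEdge)** the slope of an edge factorisation -/
theorem slope_edge (h : IsSlope iL W sl) {p : ℕ} {ε z z' g1 g2 f : E} {A B : ℤ}
    (hε : sl ε = 0) (hz : sl z = -1) (hz' : sl z' = 1)
    (hε0 : ε ≠ 0) (hz0 : z ≠ 0) (hz'0 : z' ≠ 0) (hg1 : g1 ≠ 0) (hg2 : g2 ≠ 0)
    (hf : f = ε * z ^ A * z' ^ B * (g1 / g2) ^ p) :
    ((sl f : ℤ) : ZMod p) = ((B - A : ℤ) : ZMod p) := by
  have hzA : z ^ A ≠ 0 := zpow_ne_zero _ hz0
  have hzB : z' ^ B ≠ 0 := zpow_ne_zero _ hz'0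
  have hg : (g1 / g2) ^ p ≠ 0 := pow_ne_zero _ (div_ne_zero hg1 hg2)
  rw [hf, h.map_mul _ _ (mul_ne_zero (mul_ne_zero hε0 hzA) hzB) hg,
    h.map_mul _ _ (mul_ne_zero hε0 hzA) hzB, h.map_mul _ _ hε0 hzA, h.map_zpow, h.map_zpow,
    h.map_pow, hε, hz, hz']
  push_cast
  rw [ZMod.natCast_self, zero_mul]
  ring

/-- **(SlopeAbs)** changing the Kummer function by a constant and a `p`-th power does not change
the slope modulo `p`. -/
theorem slope_kummer_change (h : IsSlope iL W sl) {p : ℕ} {c : L} {fx g ft : E}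
    (hc : c ≠ 0) (hfx : fx ≠ 0) (hg : g ≠ 0) (hft : ft = iL c * fx * g ^ p) :
    ((sl ft : ℤ) : ZMod p) = ((sl fx : ℤ) : ZMod p) := by
  rw [hft, h.map_mul _ _ (mul_ne_zero ((map_ne_zero iL).mpr hc) hfx) (pow_ne_zero _ hg),
    h.map_mul _ _ ((map_ne_zero iL).mpr hc) hfx, h.map_const, h.map_pow]
  push_cast
  rw [ZMod.natCast_self, zero_mul]
  ring

/-- **packaged consumer form**: for a side datum with (o3) and `R ≤ W`, `u' ∈ R` a unit of `W` with
`o u' = 1`, `u * u' = c * Ψ` (`c` a nonzero constant, `Ψ` a unit of `R`), an edge factorisation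
`f = ε * u ^ A * u' ^ B * (g1 / g2) ^ p` with `ε` a unit of `R` has slope `B - A` modulo `p`. -/
theorem slope_edge_of_datum {R : Subring E} {o : E → ℤ} (hD : SideDatum iL W R o)
    (hle : ∀ r ∈ R, r ∈ W) (hnn : ∀ r ∈ R, W.valuation r = 1 → 0 ≤ o r)
    {u u' Ψ : E} {c : L} (hu' : u' ∈ R) (hvu' : W.valuation u' = 1) (hou' : o u' = 1)
    (hΨ : Ψ ∈ R) (hΨi : Ψ⁻¹ ∈ R) (hΨ0 : Ψ ≠ 0) (hc : c ≠ 0) (hu0 : u ≠ 0)
    (hrel : u * u' = iL c * Ψ)
    {p : ℕ} {ε g1 g2 f : E} {A B : ℤ} (hε : ε ∈ R) (hεi : ε⁻¹ ∈ R) (hε0 : ε ≠ 0)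
    (hg1 : g1 ≠ 0) (hg2 : g2 ≠ 0) (hf : f = ε * u ^ A * u' ^ B * (g1 / g2) ^ p) :
    ((hD.slope f : ℤ) : ZMod p) = ((B - A : ℤ) : ZMod p) := by
  have h := hD.isSlope_slope
  have hval : ∀ r ∈ R, W.valuation r = 1 → hD.slope r = o r := fun r hr hv =>
    hD.slope_of_mem hr hv
  have hu'0 : u' ≠ 0 := ne_zero_of_val_eq_one hvu'
  have hsu' : hD.slope u' = 1 := slope_uniformiser hval hu' hvu' hou'
  have hsΨ : hD.slope Ψ = 0 := slope_unit h hle hnn hval hΨ hΨi hΨ0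
  have hsu : hD.slope u = -1 := slope_vertical h hsu' hsΨ hu0 hu'0 hc hΨ0 hrel
  have hsε : hD.slope ε = 0 := slope_unit h hle hnn hval hε hεi hε0
  exact slope_edge h hsε hsu hsu' hε0 hu0 hu'0 hg1 hg2 hf

end Fermat.Agent.S40x.R2.SlopeB.EdgeSlope
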