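/-
helper12 (P-S44, block C3, leaf C3-SLOPE, independent SECOND): the packaged consumer theorems.

Setting: `F` the function field downstairs, `E` the cover field, `G` a finite group acting on `E`
with `E^G = F`; `V ≤ F`, `W ≤ E` valuation subrings, `W` over `V`; `R_s ≤ F`, `R ≤ E` the node rings
with `R_s ⊆ R`, `θ ∈ R` whose conjugates lie in `W` and are pairwise different modulo the maximal
ideal of `W`; order functions `o_s`, `o` with `o = o_s` on `R_s`.

* `sideDatum_upstairs` : a side datum downstairs + (o1), (o2) upstairs give a side datum upstairs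
  ((D) by `ImmThetaB.exists_ratio` + `DenseLift.dense_lift`, (Sc), (K) by `Lift`).
* `slope_upstairs_restrict` : the slope upstairs restricted to `F` is the slope downstairs.
* `slope_downstairs_eq_edge` : **what ASM consumes**: if `ft = c * f_x * g ^ p` in `E` and
  `ft = ε * u ^ A * u' ^ B * (g1 / g2) ^ p` is an edge factorisation in `R`, then the slope of `f_x`
  downstairs is `B - A` modulo `p`.
-/
import Fermat.Agent.S40x.R2.SlopeB.DenseLift
import Fermat.Agent.S40x.R2.SlopeB.ImmThetaB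
import Fermat.Agent.S40x.R2.SlopeB.EdgeSlope

set_option autoImplicit false
set_option linter.unusedSectionVars false

namespace Fermat.Agent.S40x.R2.SlopeB.Main

open Fermat.Agent.S40x.R2.SlopeB.Side Fermat.Agent.S40x.R2.SlopeB.Lift
  Fermat.Agent.S40x.R2.SlopeB.DenseLift Fermat.Agent.S40x.R2.SlopeB.ImmThetaB
  Fermat.Agent.S40x.R2.SlopeB.EdgeSlope

variable {L F E : Type*} [Field L] [Field F] [Field E] [Algebra F E]
variable {V : ValuationSubring F} {W : ValuationSubring E}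

/-- **the side datum upstairs** -/
theorem sideDatum_upstairs [IsAlgClosed L] {G : Type*} [Group G] [Fintype G]
    [MulSemiringAction G E] [SMulCommClass G F E] [Algebra.IsInvariant F E G] (jL : L →+* F) (hVW : ∀ e : F, algebraMap F E e ∈ W ↔ e ∈ V)
    {Rs : Subring F} {R : Subring E} {os : F → ℤ} {o : E → ℤ}
    (hs : SideDatum jL V Rs os)
    (hRs : ∀ r ∈ Rs, algebraMap F E r ∈ R)
    (hoo : ∀ r ∈ Rs, V.valuation r = 1 → o (algebraMap F E r) = os r)
    (ho_mul : ∀ r ∈ R, ∀ r' ∈ R, W.valuation r = 1 → W.valuation r' = 1 →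
      o (r * r') = o r + o r')
    (ho_congr : ∀ r ∈ R, ∀ r' ∈ R, W.valuation r = 1 → W.valuation r' = 1 →
      W.valuation (r - r') < 1 → o r = o r')
    {θ : E} (hθR : θ ∈ R) (hθ : ∀ g : G, g • θ ∈ W)
    (hθu : ∀ g g' : G, g ≠ g' → W.valuation (g • θ - g' • θ) = 1) :
    SideDatum ((algebraMap F E).comp jL) W R o := by
  have halg : Algebra.IsAlgebraic F E :=
    have : Algebra.IsIntegral F E := Algebra.IsInvariant.isIntegral F E G
    inferInstance
  have hθW : θ ∈ W := by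
    have := hθ 1
    rwa [one_smul] at this
  exact sideDatum_lift jL hVW hs hRs hoo ho_mul ho_congr
    (dense_lift hVW hRs hθR hθW hs.dense fun x hx => exists_ratio (G := G) hVW hθ hθu hx)

/-- **restriction**: the slope upstairs restricted to `F` is the slope downstairs -/
theorem slope_upstairs_restrict (jL : L →+* F) (hVW : ∀ e : F, algebraMap F E e ∈ W ↔ e ∈ V)
    {Rs : Subring F} {R : Subring E} {os : F → ℤ} {o : E → ℤ}
    (hs : SideDatum jL V Rs os) (hD : SideDatum ((algebraMap F E).comp jL) W R o)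
    (hRs : ∀ r ∈ Rs, algebraMap F E r ∈ R)
    (hoo : ∀ r ∈ Rs, V.valuation r = 1 → o (algebraMap F E r) = os r) (x : F) :
    hD.slope (algebraMap F E x) = hs.slope x := by
  refine restrict_eq jL hVW hD.isSlope_slope hs.isSlope_slope hs.dense hs.scal
    (fun r hr hv => ?_) x
  rw [hD.slope_of_mem (hRs r hr) ((val_eq_one_iff hVW r).mpr hv), hoo r hr hv,
    hs.slope_of_mem hr hv]

/-- **what ASM consumes**: the slope downstairs of `f_x` from an edge factorisation upstairs of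
`ft = c * f_x * g ^ p`. -/
theorem slope_downstairs_eq_edge (jL : L →+* F) (hVW : ∀ e : F, algebraMap F E e ∈ W ↔ e ∈ V)
    {Rs : Subring F} {R : Subring E} {os : F → ℤ} {o : E → ℤ}
    (hs : SideDatum jL V Rs os) (hD : SideDatum ((algebraMap F E).comp jL) W R o)
    (hRs : ∀ r ∈ Rs, algebraMap F E r ∈ R)
    (hoo : ∀ r ∈ Rs, V.valuation r = 1 → o (algebraMap F E r) = os r)
    (hle : ∀ r ∈ R, r ∈ W) (hnn : ∀ r ∈ R, W.valuation r = 1 → 0 ≤ o r)
    {u u' Ψ : E} {c₀ : L} (hu' : u' ∈ R) (hvu' : W.valuation u' = 1) (hou' : o u' = 1)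
    (hΨ : Ψ ∈ R) (hΨi : Ψ⁻¹ ∈ R) (hΨ0 : Ψ ≠ 0) (hc₀ : c₀ ≠ 0) (hu0 : u ≠ 0)
    (hrel : u * u' = algebraMap F E (jL c₀) * Ψ)
    {p : ℕ} {fx : F} {c : L} {g ft ε g1 g2 : E} {A B : ℤ}
    (hfx : fx ≠ 0) (hc : c ≠ 0) (hg : g ≠ 0)
    (hft : ft = algebraMap F E (jL c) * algebraMap F E fx * g ^ p)
    (hε : ε ∈ R) (hεi : ε⁻¹ ∈ R) (hε0 : ε ≠ 0) (hg1 : g1 ≠ 0) (hg2 : g2 ≠ 0)
    (hedge : ft = ε * u ^ A * u' ^ B * (g1 / g2) ^ p) :
    ((hs.slope fx : ℤ) : ZMod p) = ((B - A : ℤ) : ZMod p) := by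
  rw [← slope_upstairs_restrict jL hVW hs hD hRs hoo fx,
    ← slope_kummer_change hD.isSlope_slope (iL := (algebraMap F E).comp jL) hc
      ((map_ne_zero _).mpr hfx) hg hft]
  exact slope_edge_of_datum hD hle hnn hu' hvu' hou' hΨ hΨi hΨ0 hc₀ hu0 hrel hε hεi hε0 hg1 hg2
    hedge

end Fermat.Agent.S40x.R2.SlopeB.Main
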