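/-
helper12 (P-S44, block C3, leaf C3-SLOPE, independent SECOND): adapters producing EXACTLY the
hypothesis `hsl` ("slope rule") of helper22's landed `S40x/R2/Asm/Core`:

* `hsl_node`   : the `hsl` of `Asm.node_slope_eq` with `n := (hs.slope fx : ZMod p)`;
* `hsl_smooth` : the `hsl` of `Asm.smooth_slope_eq_zero` with the same `n`.

Here `R` is the node ring as a TYPE with `Algebra R E0` (`E0 = FL_0`), `ι : E0 →+* E` the inclusion
into the cover field over the algebraically closed constants (`E = FL`), `R'` any subring of `E`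
containing the image of `R`, carrying the side datum upstairs; `hs` is the side datum downstairs
(`F`, `V = valInfty`, `R_s`, `o_s`), so `hs.slope fx` is THE slope of the Kummer function `fx`.
-/
import Fermat.Agent.S40x.R2.SlopeB.Main

set_option autoImplicit false
set_option linter.unusedSectionVars false

namespace Fermat.Agent.S40x.R2.SlopeB.AsmAdapter

open Fermat.Agent.S40x.R2.SlopeB.Side Fermat.Agent.S40x.R2.SlopeB.Lift
  Fermat.Agent.S40x.R2.SlopeB.EdgeSlope Fermat.Agent.S40x.R2.SlopeB.Main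

variable {L F E : Type*} [Field L] [Field F] [Field E] [Algebra F E]
variable {V : ValuationSubring F} {W : ValuationSubring E}
variable {E0 : Type*} [Field E0] {R : Type*} [CommRing R] [Algebra R E0]

/-- the image of a unit of `R` is a unit of `R'` -/
theorem unit_mem (ι : E0 →+* E) {R' : Subring E} (hR : ∀ r : R, ι (algebraMap R E0 r) ∈ R')
    (ε : Rˣ) : ι (algebraMap R E0 ε) ∈ R' ∧ (ι (algebraMap R E0 ε))⁻¹ ∈ R' ∧
      ι (algebraMap R E0 ε) ≠ 0 := by
  have h1 : ι (algebraMap R E0 (ε : R)) * ι (algebraMap R E0 ((ε⁻¹ : Rˣ) : R)) = 1 := by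
    rw [← map_mul, ← map_mul, Units.mul_inv, map_one, map_one]
  have h0 : ι (algebraMap R E0 ε) ≠ 0 := left_ne_zero_of_mul_eq_one h1
  refine ⟨hR _, ?_, h0⟩
  rw [← eq_inv_of_mul_eq_one_right h1]
  exact hR _

/-- **node adapter**: the slope rule `hsl` of `Asm.node_slope_eq`. -/
theorem hsl_node (jL : L →+* F) (hVW : ∀ e : F, algebraMap F E e ∈ W ↔ e ∈ V)
    {Rs : Subring F} {R' : Subring E} {os : F → ℤ} {o : E → ℤ}
    (hs : SideDatum jL V Rs os) (hD : SideDatum ((algebraMap F E).comp jL) W R' o)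
    (hRs : ∀ r ∈ Rs, algebraMap F E r ∈ R')
    (hoo : ∀ r ∈ Rs, V.valuation r = 1 → o (algebraMap F E r) = os r)
    (hle : ∀ r ∈ R', r ∈ W) (hnn : ∀ r ∈ R', W.valuation r = 1 → 0 ≤ o r)
    (ι : E0 →+* E) (hinj : Function.Injective (algebraMap R E0))
    (hR : ∀ r : R, ι (algebraMap R E0 r) ∈ R')
    {u u' : R} {Ψ : Rˣ} {c₀ : L} (hc₀ : c₀ ≠ 0) (hu0 : u ≠ 0)
    (hvu' : W.valuation (ι (algebraMap R E0 u')) = 1) (hou' : o (ι (algebraMap R E0 u')) = 1)
    (hrel : ι (algebraMap R E0 (u * u')) = algebraMap F E (jL c₀) * ι (algebraMap R E0 Ψ))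
    {p : ℕ} {fx : F} {c : L} {g : E} {ft : E0} (hfx : fx ≠ 0) (hc : c ≠ 0) (hg : g ≠ 0)
    (hft : ι ft = algebraMap F E (jL c) * algebraMap F E fx * g ^ p) :
    ∀ (A B : ℤ) (ε : Rˣ) (g1 g2 : R), ¬ u ∣ g1 → ¬ u' ∣ g1 → ¬ u ∣ g2 → ¬ u' ∣ g2 →
      ft = algebraMap R E0 ε * algebraMap R E0 u ^ A * algebraMap R E0 u' ^ B *
        (algebraMap R E0 g1 / algebraMap R E0 g2) ^ p →
      ((hs.slope fx : ℤ) : ZMod p) = ((B - A : ℤ) : ZMod p) := by
  intro A B ε g1 g2 h1 _ h2 _ hfact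
  have ne0 : ∀ r : R, r ≠ 0 → ι (algebraMap R E0 r) ≠ 0 := fun r hr h0 =>
    hr (hinj (by rw [ι.injective (h0.trans (map_zero ι).symm), map_zero]))
  have hg1 : g1 ≠ 0 := by rintro rfl; exact h1 (dvd_zero u)
  have hg2 : g2 ≠ 0 := by rintro rfl; exact h2 (dvd_zero u)
  obtain ⟨hΨ, hΨi, hΨ0⟩ := unit_mem ι hR Ψ
  obtain ⟨hε, hεi, hε0⟩ := unit_mem ι hR ε
  have hrel' : ι (algebraMap R E0 u) * ι (algebraMap R E0 u') =
      algebraMap F E (jL c₀) * ι (algebraMap R E0 Ψ) := by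
    rw [← map_mul, ← map_mul]
    exact hrel
  have hedge : ι ft = ι (algebraMap R E0 ε) * ι (algebraMap R E0 u) ^ A *
      ι (algebraMap R E0 u') ^ B * (ι (algebraMap R E0 g1) / ι (algebraMap R E0 g2)) ^ p := by
    rw [hfact, map_mul, map_mul, map_mul, map_zpow₀, map_zpow₀, map_pow, map_div₀]
  exact slope_downstairs_eq_edge jL hVW hs hD hRs hoo hle hnn (hR u') hvu' hou' hΨ hΨi hΨ0 hc₀
    (ne0 u hu0) hrel' hfx hc hg hft hε hεi hε0 (ne0 g1 hg1) (ne0 g2 hg2) hedge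

/-- **smooth adapter**: the slope rule `hsl` of `Asm.smooth_slope_eq_zero` (the vertical prime `π`
is a constant, in the application `π = p`). -/
theorem hsl_smooth (jL : L →+* F) (hVW : ∀ e : F, algebraMap F E e ∈ W ↔ e ∈ V)
    {Rs : Subring F} {R' : Subring E} {os : F → ℤ} {o : E → ℤ}
    (hs : SideDatum jL V Rs os) (hD : SideDatum ((algebraMap F E).comp jL) W R' o)
    (hRs : ∀ r ∈ Rs, algebraMap F E r ∈ R')
    (hoo : ∀ r ∈ Rs, V.valuation r = 1 → o (algebraMap F E r) = os r)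
    (hle : ∀ r ∈ R', r ∈ W) (hnn : ∀ r ∈ R', W.valuation r = 1 → 0 ≤ o r)
    (ι : E0 →+* E) (hinj : Function.Injective (algebraMap R E0))
    (hR : ∀ r : R, ι (algebraMap R E0 r) ∈ R')
    {π : R} {c₀ : L} (hc₀ : c₀ ≠ 0) (hπ : ι (algebraMap R E0 π) = algebraMap F E (jL c₀))
    {p : ℕ} {fx : F} {c : L} {g : E} {ft : E0} (hfx : fx ≠ 0) (hc : c ≠ 0) (hg : g ≠ 0)
    (hft : ι ft = algebraMap F E (jL c) * algebraMap F E fx * g ^ p) :
    ∀ (A : ℤ) (ε : Rˣ) (g1 g2 : R), ¬ π ∣ g1 → ¬ π ∣ g2 →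
      ft = algebraMap R E0 ε * algebraMap R E0 π ^ A *
        (algebraMap R E0 g1 / algebraMap R E0 g2) ^ p →
      ((hs.slope fx : ℤ) : ZMod p) = 0 := by
  intro A ε g1 g2 h1 h2 hfact
  have h := hD.isSlope_slope
  have ne0 : ∀ r : R, r ≠ 0 → ι (algebraMap R E0 r) ≠ 0 := fun r hr h0 =>
    hr (hinj (by rw [ι.injective (h0.trans (map_zero ι).symm), map_zero]))
  have hg1 : g1 ≠ 0 := by rintro rfl; exact h1 (dvd_zero π)
  have hg2 : g2 ≠ 0 := by rintro rfl; exact h2 (dvd_zero π)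
  obtain ⟨hε, hεi, hε0⟩ := unit_mem ι hR ε
  have hval : ∀ r ∈ R', W.valuation r = 1 → hD.slope r = o r := fun r hr hv =>
    hD.slope_of_mem hr hv
  have hsε : hD.slope (ι (algebraMap R E0 ε)) = 0 := slope_unit h hle hnn hval hε hεi hε0
  have hπE : ι (algebraMap R E0 π) ≠ 0 := by
    rw [hπ]
    exact (map_ne_zero _).mpr ((map_ne_zero _).mpr hc₀)
  have hq : ι (algebraMap R E0 g1) / ι (algebraMap R E0 g2) ≠ 0 :=
    div_ne_zero (ne0 g1 hg1) (ne0 g2 hg2)
  have hedge : ι ft = ι (algebraMap R E0 ε) * ι (algebraMap R E0 π) ^ A *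
      (ι (algebraMap R E0 g1) / ι (algebraMap R E0 g2)) ^ p := by
    rw [hfact, map_mul, map_mul, map_zpow₀, map_pow, map_div₀]
  have hsπ : hD.slope (ι (algebraMap R E0 π)) = 0 := by
    rw [hπ]
    exact h.map_const c₀
  have hsft : ((hD.slope (ι ft) : ℤ) : ZMod p) = 0 := by
    rw [hedge, h.map_mul _ _ (mul_ne_zero hε0 (zpow_ne_zero _ hπE)) (pow_ne_zero _ hq),
      h.map_mul _ _ hε0 (zpow_ne_zero _ hπE), h.map_zpow, h.map_pow, hsε, hsπ]
    push_cast
    rw [ZMod.natCast_self]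
    ring
  rw [← slope_upstairs_restrict jL hVW hs hD hRs hoo fx,
    ← slope_kummer_change h (iL := (algebraMap F E).comp jL) hc ((map_ne_zero _).mpr hfx) hg hft]
  exact hsft

end Fermat.Agent.S40x.R2.SlopeB.AsmAdapter
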