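import Fermat.Agent.S40x.R2.Slope.NodeGlue
import Fermat.Agent.S40x.NodeRing.Smooth

/-!
# P-S44, block C3, seam [ET] x [SL], SMOOTH side (helper12)

The composite `ET ∘ SL` at a smooth point (or cusp) `P` of the special fibre: helper41's landed
`Slope/NodeGlue.smooth_slope_nodeOrd` (= `SlopeB/NodeSlope.smooth_slope` with the order function
plugged) applied to helper4's etale lift `Rn := Embed.Rstar _ hc ⊆ E0` (`NodeRing/Smooth`,
`NodeRing/Bundle`) of the smooth-point ring `R₀` (`m = (p, t₀)`, `p` prime, `p ∤ t₀`).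

All ring-theoretic hypotheses of `smooth_slope_nodeOrd` on `Rn` (maximal ideal `(p, t)`, `p` prime,
UFD, fraction field `E0`, image in `W`, the valuations of `p` and `t`, the compatibility with
`R₀`, the element `θn = θ₀'` with unit conjugate differences, `p` a constant) are DISCHARGED from
the `ASDatum`; the root `c` (i.e. the maximal ideal of `R₀[θ₀']`) is chosen inside `W`.

What stays: the downstairs smooth-point data (`R₀ ⊆ O`, `v(p) < 1`, `v(t₀) = 1`, (D), (n3)),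
the cover data (`ASDatum`, `[E0 : F0] = p`, the group `G` acting through the iterates of `σ`),
the valuation subring `W` over `O`, the Kummer data and hypothesis `H` of C3-CFE for every root.
-/

set_option autoImplicit false
set_option linter.unusedSectionVars false
set_option linter.style.haveILetI false

namespace Fermat.Agent.S40x.R2.SlopeB.EtSmoothPlug

open AlgebraicCurve IsLocalRing Polynomial Fermat.Agent.Gateway.Kummer Fermat.Agent.Gateway.C0
  Fermat.Agent.S40x.Slope.SlopeInv Fermat.Agent.S40x.R2.Transitive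
  Fermat.Agent.S40x.R2.SlopeB.PlaceInst Fermat.Agent.S40x.R2.Slope
  Fermat.Agent.S40x.NodeRing

variable {L : Type*} [Field L] [IsAlgClosed L] {F : Type*} [Field F] [Algebra L F]
  [HasPrincipalDivisors L F]
  {k : Type*} [Field k] {Eκ : Type*} [Field Eκ] [Algebra k Eκ]
  {A : ValuationSubring L} {O₁ O₂ O : ValuationSubring F}
variable {E : Type*} [Field E] [Algebra F E] {W : ValuationSubring E}
variable {G : Type*} [Group G] [Fintype G] [MulSemiringAction G E] [SMulCommClass G F E]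
  [Algebra.IsInvariant F E G] [FaithfulSMul G E]
variable {E0 : Type*} [Field E0] [Algebra E0 E]
variable {R₀ : Type*} [CommRing R₀] [IsDomain R₀] [IsLocalRing R₀] [IsNoetherianRing R₀]
  [IsIntegrallyClosed R₀] [IsAlgClosed (ResidueField R₀)]
  [Algebra R₀ F] [Algebra R₀ E0] [FaithfulSMul R₀ E0] [Algebra R₀ E]
  [IsScalarTower R₀ E0 E] [IsScalarTower R₀ F E]
variable {p : ℕ} [hp : Fact p.Prime]
  {σ : E →ₐ[R₀] E} {ι : Type*} [Fintype ι] {θ ζ : ι → E} {θ₀' : E0}

/-- **the slope at a smooth point (or cusp) is zero**: `ET ∘ SL`, smooth side. -/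
theorem smooth_slopeAt_eq_zero_Rstar (R : Fermat.Agent.Gateway.C0.RedSetup A O k Eκ)
    (P : Place k Eκ) (hS : SlopeData (L := L) O₁ O₂ O R.res p)
    -- the smooth-point ring downstairs
    {t₀ : R₀} (hmax₀ : maximalIdeal R₀ = Ideal.span {(p : R₀), t₀}) (hpp : Prime (p : R₀))
    (hpt : ¬ (p : R₀) ∣ t₀)
    (hRO : ∀ r : R₀, algebraMap R₀ F r ∈ O)
    (hvp : O.valuation ((p : ℕ) : F) < 1) (hvt₀ : O.valuation (algebraMap R₀ F t₀) = 1)
    (hdense : ∀ x : F, O.valuation x = 1 → ∃ r1 ∈ (algebraMap R₀ F).range,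
      ∃ r2 ∈ (algebraMap R₀ F).range, O.valuation r1 = 1 ∧
      O.valuation r2 = 1 ∧ O.valuation (x * r2 - r1) < 1)
    (hn3 : ∀ r : R₀, ¬ (p : R₀) ∣ r →
      ordAt O R.res P (algebraMap R₀ F r) = ordQ (p : R₀) t₀ r)
    -- the cover
    (D : ASDatum R₀ p σ θ ζ) (hθ : algebraMap E0 E θ₀' = -∑ d, θ d)
    (F0 : Type*) [Field F0] [Algebra R₀ F0] [IsFractionRing R₀ F0] [Algebra F0 E0]
    [IsScalarTower R₀ F0 E0] [FiniteDimensional F0 E0] (hfin : Module.finrank F0 E0 = p)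
    (hG : ∀ g : G, ∃ i < p, ∀ e : E, g • e = (σ^[i]) e)
    (hVW : ∀ e : F, algebraMap F E e ∈ W ↔ e ∈ O)
    (hpL : ((p : ℕ) : L) ≠ 0)
    -- the Kummer functions
    {x : Pic0 L F} {fx : F} (hfx : IsKummerRep p x fx) {c : L} (hc : c ≠ 0) {g : E} (hg : g ≠ 0)
    {ft : E0} (hft : ft ≠ 0)
    (hftx : algebraMap E0 E ft = algebraMap F E (algebraMap L F c) * algebraMap F E fx * g ^ p)
    (H : ∀ (c : R₀) (hc : (minpoly R₀ θ₀').eval c ∈ maximalIdeal R₀),
      ∀ h : Embed.Rstar (ET.isIntegral' D hθ) hc, Prime h →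
      ¬ Associated h ((p : ℕ) : Embed.Rstar (ET.isIntegral' D hθ) hc) →
      ∀ f1 f2 : Embed.Rstar (ET.isIntegral' D hθ) hc, f2 ≠ 0 →
        ft * algebraMap (Embed.Rstar (ET.isIntegral' D hθ) hc) E0 f2 =
          algebraMap (Embed.Rstar (ET.isIntegral' D hθ) hc) E0 f1 →
      ∀ n1 n2 : ℕ, h ^ n1 ∣ f1 → ¬ h ^ (n1 + 1) ∣ f1 → h ^ n2 ∣ f2 → ¬ h ^ (n2 + 1) ∣ f2 →
        (p : ℤ) ∣ (n1 : ℤ) - n2) :
    slopeAt O₁ O₂ O R.res p x P = 0 := by
  classical
  -- `R₀ ⊆ W`, `p ∈ 𝔪_W`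
  have hW : ∀ r : R₀, algebraMap R₀ E r ∈ W := by
    intro r
    rw [IsScalarTower.algebraMap_apply R₀ F E]
    exact (hVW _).mpr (hRO r)
  have hpE : ((p : ℕ) : E) = algebraMap F E ((p : ℕ) : F) := (map_natCast (algebraMap F E) p).symm
  have hvpW : W.valuation ((p : ℕ) : E) < 1 := by
    rw [hpE]
    exact (Fermat.Agent.S40x.R2.SlopeB.Lift.val_lt_one_iff hVW _).mpr hvp
  have hpW : ((p : ℕ) : E) ∈ W.nonunits := hvpW
  -- the root `c` inside `W ∩ E0`
  have hW0 : ∀ r : R₀, algebraMap R₀ E0 r ∈ W.comap (algebraMap E0 E) := by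
    intro r
    rw [ValuationSubring.mem_comap, ← IsScalarTower.algebraMap_apply R₀ E0 E]
    exact hW r
  obtain ⟨c₁, hc₁, hle⟩ := ET.exists_le' D hθ (W.comap (algebraMap E0 E)) hW0
  have hpm : (p : R₀) ∈ maximalIdeal R₀ := by
    rw [hmax₀]; exact Ideal.subset_span (by simp)
  have hnode₀ : IsNode (p : R₀) t₀ := IsNode.of_regPair hmax₀ hpp hpt
  have hnode := ET.isNode' D hpm hθ hnode₀ hc₁
  haveI : UniqueFactorizationMonoid (Embed.Rstar (ET.isIntegral' D hθ) hc₁) :=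
    ET.ufm' D hpm hθ hnode₀ hc₁
  haveI : IsFractionRing (Embed.Rstar (ET.isIntegral' D hθ) hc₁) E0 :=
    ET.isFractionRing' D hpm hθ hc₁ F0 hfin
  have hincp : Embed.inclStar (ET.isIntegral' D hθ) hc₁ (p : R₀) =
      ((p : ℕ) : Embed.Rstar (ET.isIntegral' D hθ) hc₁) := map_natCast _ p
  have hmaxn := hnode.max_eq
  have hndvd := hnode.not_dvd
  rw [hincp] at hmaxn hndvd
  have hcoe : ∀ r : R₀, algebraMap (Embed.Rstar (ET.isIntegral' D hθ) hc₁) E0
      (Embed.inclStar (ET.isIntegral' D hθ) hc₁ r) = algebraMap R₀ E0 r :=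
    fun r => Embed.coe_inclStar (ET.isIntegral' D hθ) hc₁ r
  -- the element `θ₀'` of `Rn`
  set θn : Embed.Rstar (ET.isIntegral' D hθ) hc₁ :=
    ⟨θ₀', Embed.theta_mem_Rstar (ET.isIntegral' D hθ) hc₁⟩ with hθn
  have hθn' : algebraMap E0 E (algebraMap (Embed.Rstar (ET.isIntegral' D hθ) hc₁) E0 θn) =
      -∑ d, θ d := hθ
  refine smooth_slope_nodeOrd (G := G) (W := W) R P hS hmax₀ hpp hpt (algebraMap R₀ F) hdense hn3
    hVW (algebraMap E0 E) hmaxn (ET.prime_natCast_Rstar D hθ hmax₀ hpp hpt hc₁) hndvd ?_ ?_ ?_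
    (Embed.inclStar (ET.isIntegral' D hθ) hc₁) hincp rfl ?_ (θn := θn) ?_ ?_ hpL ?_ hfx hc hg hft
    hftx (H c₁ hc₁)
  · -- hφW
    intro r
    have := hle r.2
    exact this
  · -- hvπ
    have h1 : algebraMap E0 E (algebraMap (Embed.Rstar (ET.isIntegral' D hθ) hc₁) E0
        ((p : ℕ) : Embed.Rstar (ET.isIntegral' D hθ) hc₁)) = ((p : ℕ) : E) := by
      rw [map_natCast, map_natCast]
    rw [h1]
    exact hvpW
  · -- hvt
    rw [hcoe, ← IsScalarTower.algebraMap_apply R₀ E0 E, IsScalarTower.algebraMap_apply R₀ F E]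
    exact (Fermat.Agent.S40x.R2.SlopeB.Lift.val_eq_one_iff hVW _).mpr hvt₀
  · -- hcomp
    intro r
    rw [hcoe, ← IsScalarTower.algebraMap_apply R₀ E0 E, ← IsScalarTower.algebraMap_apply R₀ F E]
  · -- hθ
    intro g
    obtain ⟨i, -, hi⟩ := hG g
    rw [hθn', hi]
    exact D.iterate_mem W hW i
  · -- hθu
    intro g g' hgg'
    obtain ⟨i, hip, hi⟩ := hG g
    obtain ⟨j, hjp, hj⟩ := hG g'
    have hij : i ≠ j := by
      rintro rfl
      apply hgg'
      apply FaithfulSMul.eq_of_smul_eq_smul (α := E)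
      intro e
      rw [hi, hj]
    rw [hθn', hi, hj]
    exact D.valuation_iterate_sub_iterate W hW hpW hip hjp hij
  · -- hπc
    rw [map_natCast, map_natCast, map_natCast, map_natCast]

end Fermat.Agent.S40x.R2.SlopeB.EtSmoothPlug
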