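/-
helper12 (P-S44, block C3, leaf C3-SLOPE, the SEAM "(D) upstairs"; independent SECOND of helper41's
`R2/Slope/ImmTheta`; imports only the landed `S40x/R2/Transitive` (helper30) + Mathlib).

`F' / F0` with a finite group `G` acting on `F'`, `F'^G = F0` (`Algebra.IsInvariant F0 F' G`), `W` a
valuation subring of `F'` over the valuation subring `O` of `F0`, `θ ∈ F'` whose conjugates `g • θ`
all lie in `W` and are pairwise different modulo the maximal ideal of `W`.

* `exists_poly_of_conj_mem` (Lagrange): an element `h` all of whose conjugates lie in `W` is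
  `Q(θ)` EXACTLY for a polynomial `Q ∈ O[T]` (degree `< |G|`).
* `exists_ratio` : every `x ∈ W` satisfies `x * Q₂(θ) = Q₁(θ)` with `Q₁, Q₂ ∈ O[T]` and `Q₂(θ)` a
  unit of `W`: the residue field of `W` is generated over the residue field of `O` by the residue
  of `θ`.  NO rank-one hypothesis and NO approximation theorem: `x = b / y` with `b, y` in the hull
  of `O` (`Transitive.exists_fraction`), and elements of the hull lie in every conjugate of `W`.
-/
import Fermat.Agent.S40x.R2.Transitive

set_option autoImplicit false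
set_option linter.unusedSectionVars false

namespace Fermat.Agent.S40x.R2.SlopeB.ImmThetaB

open Polynomial Fermat.Agent.S40x.R2.Transitive

open scoped Classical

variable {F0 F' : Type*} [Field F0] [Field F'] [Algebra F0 F']
variable {G : Type*} [Group G] [Fintype G] [MulSemiringAction G F']

/-- the Lagrange interpolant through the points `(g • θ, g • h)` -/
noncomputable def interp (G : Type*) [Group G] [Fintype G] [MulSemiringAction G F'] (θ h : F') :
    F'[X] :=
  Lagrange.interpolate Finset.univ (fun g : G => g • θ) (fun g : G => g • h)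

section Coeff

variable {W : ValuationSubring F'}

theorem injective_nodes {θ : F'}
    (hθu : ∀ g g' : G, g ≠ g' → W.valuation (g • θ - g' • θ) = 1) :
    Function.Injective (fun g : G => g • θ) := by
  intro g g' h
  by_contra hne
  have := hθu g g' hne
  rw [show g • θ - g' • θ = 0 from sub_eq_zero.mpr h, map_zero] at this
  exact zero_ne_one this

/-- the interpolant has coefficients in `W` -/
theorem interp_mem_lifts {θ h : F'} (hθ : ∀ g : G, g • θ ∈ W)
    (hθu : ∀ g g' : G, g ≠ g' → W.valuation (g • θ - g' • θ) = 1)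
    (hh : ∀ g : G, g • h ∈ W) : interp G θ h ∈ liftsRing W.subtype := by
  have hC : ∀ a : F', a ∈ W → (C a : F'[X]) ∈ liftsRing W.subtype := by
    intro a ha
    rw [← lifts_iff_liftsRing]
    exact C'_mem_lifts ⟨⟨a, ha⟩, rfl⟩
  have hX : (X : F'[X]) ∈ liftsRing W.subtype := by
    rw [← lifts_iff_liftsRing]
    exact X_mem_lifts _
  rw [interp, Lagrange.interpolate_apply]
  refine Subring.sum_mem _ fun g _ => ?_
  refine Subring.mul_mem _ (hC _ (hh g)) ?_
  rw [Lagrange.basis]
  refine Subring.prod_mem _ fun g' hg' => ?_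
  have hne : g' ≠ g := (Finset.mem_erase.mp hg').1
  rw [Lagrange.basisDivisor]
  refine Subring.mul_mem _ (hC _ ?_) (Subring.sub_mem _ hX (hC _ (hθ g')))
  have h1 := hθu g g' hne.symm
  rw [← ValuationSubring.valuation_le_one_iff, map_inv₀, h1, inv_one]

end Coeff

section Invariant

variable [SMulCommClass G F0 F'] [Algebra.IsInvariant F0 F' G]

/-- the interpolant is `G`-invariant -/
theorem map_interp {W : ValuationSubring F'} {θ : F'}
    (hθu : ∀ g g' : G, g ≠ g' → W.valuation (g • θ - g' • θ) = 1) (h : F') (g : G) :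
    (interp G θ h).map (MulSemiringAction.toRingHom G F' g) = interp G θ h := by
  have hinj : Set.InjOn (fun g : G => g • θ) (Finset.univ : Finset G) :=
    (injective_nodes hθu).injOn
  refine Lagrange.eq_interpolate_of_eval_eq _ hinj ?_ ?_
  · exact lt_of_le_of_lt (degree_map_le) (Lagrange.degree_interpolate_lt _ hinj)
  · intro g' _
    have e1 : g' • θ = MulSemiringAction.toRingHom G F' g ((g⁻¹ * g') • θ) := by
      rw [MulSemiringAction.toRingHom_apply, ← mul_smul, mul_inv_cancel_left]
    rw [e1, eval_map, eval₂_at_apply, interp,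
      Lagrange.eval_interpolate_at_node _ hinj (Finset.mem_univ _),
      MulSemiringAction.toRingHom_apply, ← mul_smul, mul_inv_cancel_left]

/-- **Lagrange**: an element all of whose conjugates lie in `W` is a polynomial in `θ` with
coefficients in `O`. -/
theorem exists_poly_of_conj_mem {O : ValuationSubring F0} {W : ValuationSubring F'}
    (hW : ∀ e : F0, algebraMap F0 F' e ∈ W ↔ e ∈ O) {θ : F'} (hθ : ∀ g : G, g • θ ∈ W)
    (hθu : ∀ g g' : G, g ≠ g' → W.valuation (g • θ - g' • θ) = 1)
    {h : F'} (hh : ∀ g : G, g • h ∈ W) :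
    ∃ Q : F0[X], (∀ n, Q.coeff n ∈ O) ∧ aeval θ Q = h := by
  have hinj : Set.InjOn (fun g : G => g • θ) (Finset.univ : Finset G) :=
    (injective_nodes hθu).injOn
  -- coefficients are invariant, hence in `F0`
  have hlift : interp G θ h ∈ lifts (algebraMap F0 F') := by
    rw [lifts_iff_coeff_lifts]
    intro n
    apply Algebra.IsInvariant.isInvariant (A := F0) (G := G)
    intro g
    have := congrArg (fun q : F'[X] => q.coeff n) (map_interp hθu h g)
    simp only [coeff_map, MulSemiringAction.toRingHom_apply] at this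
    exact this
  obtain ⟨Q, hQ⟩ := (mem_lifts _).mp hlift
  refine ⟨Q, fun n => ?_, ?_⟩
  · rw [← hW, ← coeff_map, hQ]
    have := interp_mem_lifts hθ hθu hh
    rw [← lifts_iff_liftsRing, lifts_iff_coeff_lifts] at this
    obtain ⟨w, hw⟩ := this n
    rw [← hw]
    exact w.2
  · rw [aeval_def, ← eval_map, hQ]
    have := Lagrange.eval_interpolate_at_node (fun g : G => g • h) hinj (Finset.mem_univ (1 : G))
    simp only [one_smul] at this
    exact this

/-- **the residue field of `W` is generated by the residue of `θ`** (ratio form). -/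
theorem exists_ratio {O : ValuationSubring F0} {W : ValuationSubring F'}
    (hW : ∀ e : F0, algebraMap F0 F' e ∈ W ↔ e ∈ O) {θ : F'} (hθ : ∀ g : G, g • θ ∈ W)
    (hθu : ∀ g g' : G, g ≠ g' → W.valuation (g • θ - g' • θ) = 1) {x : F'} (hx : x ∈ W) :
    ∃ Q₁ Q₂ : F0[X], (∀ n, Q₁.coeff n ∈ O) ∧ (∀ n, Q₂.coeff n ∈ O) ∧
      W.valuation (aeval θ Q₂) = 1 ∧ x * aeval θ Q₂ = aeval θ Q₁ := by
  have halg : Algebra.IsAlgebraic F0 F' :=
    have : Algebra.IsIntegral F0 F' := Algebra.IsInvariant.isIntegral F0 F' G
    inferInstance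
  obtain ⟨y, b, hy, hb, hyW, hxy⟩ := exists_fraction hW hx
  have hle : hull (F' := F') O ≤ W.toSubring := hull_le fun e he => (hW e).mpr he
  have hconj : ∀ z ∈ hull (F' := F') O, ∀ g : G, g • z ∈ W := fun z hz g =>
    hle (smul_mem_hull g hz)
  obtain ⟨Q₁, hQ₁, hb'⟩ := exists_poly_of_conj_mem hW hθ hθu (hconj b hb)
  obtain ⟨Q₂, hQ₂, hy'⟩ := exists_poly_of_conj_mem hW hθ hθu (hconj y hy)
  refine ⟨Q₁, Q₂, hQ₁, hQ₂, ?_, ?_⟩
  · rw [hy']
    refine le_antisymm ((W.valuation_le_one_iff _).mpr (hle hy)) (not_lt.mp fun hlt => hyW ?_)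
    exact (W.mem_nonunits_iff).mpr hlt
  · rw [hy', hb', hxy]

end Invariant

end Fermat.Agent.S40x.R2.SlopeB.ImmThetaB
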