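/-
helper12 (P-S44, block C3, leaf C3-SLOPE, independent SECOND; Mathlib only).

Lifting the axioms of a side datum along an algebraic extension `E / F`, `W` a valuation subring
of `E` lying over the valuation subring `V` of `F` (`hVW : ∀ e, algebraMap F E e ∈ W ↔ e ∈ V`, the
shape of `S40x/R2/Transitive`).

* `val_eq_one_iff`, `val_lt_one_iff`, `val_le_one_iff` : dictionary between `V.valuation` and
  `W.valuation ∘ algebraMap`.
* `scal_lift` : (Sc) for `(F, V)` and `L` algebraically closed give (Sc) for `(E, W)`.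
* `const_lift` : (K) + (D) downstairs and `o = o_s` on `R_s` give (K) upstairs.
* `IsSlope.restrict` : the restriction of a slope function of `(E, W)` to `F` is a slope function
  of `(F, V)`; `restrict_eq` : hence it is THE slope function downstairs.
-/
import Fermat.Agent.S40x.R2.SlopeB.Side

set_option autoImplicit false

namespace Fermat.Agent.S40x.R2.SlopeB.Lift

open Fermat.Agent.S40x.R2.SlopeB.Side

variable {L F E : Type*} [Field L] [Field F] [Field E] [Algebra F E]
variable {V : ValuationSubring F} {W : ValuationSubring E}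

/-! ### dictionary -/

theorem val_le_one_iff (hVW : ∀ e : F, algebraMap F E e ∈ W ↔ e ∈ V) (e : F) :
    W.valuation (algebraMap F E e) ≤ 1 ↔ V.valuation e ≤ 1 := by
  rw [ValuationSubring.valuation_le_one_iff, ValuationSubring.valuation_le_one_iff, hVW]

theorem val_lt_one_iff (hVW : ∀ e : F, algebraMap F E e ∈ W ↔ e ∈ V) (e : F) :
    W.valuation (algebraMap F E e) < 1 ↔ V.valuation e < 1 := by
  rw [← ValuationSubring.mem_nonunits_iff, ← ValuationSubring.mem_nonunits_iff,
    ValuationSubring.mem_nonunits_iff_or, ValuationSubring.mem_nonunits_iff_or, ← map_inv₀, hVW,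
    map_eq_zero]

theorem val_eq_one_iff (hVW : ∀ e : F, algebraMap F E e ∈ W ↔ e ∈ V) (e : F) :
    W.valuation (algebraMap F E e) = 1 ↔ V.valuation e = 1 := by
  constructor
  · intro h
    refine le_antisymm ((val_le_one_iff hVW e).mp h.le) (not_lt.mp fun hlt => ?_)
    have := (val_lt_one_iff hVW e).mpr hlt
    rw [h] at this
    exact lt_irrefl _ this
  · intro h
    refine le_antisymm ((val_le_one_iff hVW e).mpr h.le) (not_lt.mp fun hlt => ?_)
    have := (val_lt_one_iff hVW e).mp hlt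
    rw [h] at this
    exact lt_irrefl _ this

/-! ### (Sc) lifts -/

/-- two monomials of the same valuation give a constant normalising `x` -/
theorem exists_const_of_monomials [IsAlgClosed L] (jL : L →+* F)
    (hVW : ∀ e : F, algebraMap F E e ∈ W ↔ e ∈ V)
    (hscal : ∀ x : F, x ≠ 0 → ∃ c : L, V.valuation (jL c * x) = 1)
    {x : E} (hx : x ≠ 0) {a b : F} (ha : a ≠ 0) (hb : b ≠ 0) {i j : ℕ} (hij : i < j)
    (heq : W.valuation (algebraMap F E a * x ^ i) = W.valuation (algebraMap F E b * x ^ j)) :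
    ∃ c : L, W.valuation (algebraMap F E (jL c) * x) = 1 := by
  obtain ⟨m, hm, rfl⟩ : ∃ m, 0 < m ∧ j = i + m := ⟨j - i, by omega, by omega⟩
  have hvx : W.valuation x ≠ 0 := (Valuation.ne_zero_iff _).mpr hx
  have hva : W.valuation (algebraMap F E a) ≠ 0 :=
    (Valuation.ne_zero_iff _).mpr ((map_ne_zero _).mpr ha)
  have hvb : W.valuation (algebraMap F E b) ≠ 0 :=
    (Valuation.ne_zero_iff _).mpr ((map_ne_zero _).mpr hb)
  -- `v(b/a) * v(x)^m = 1`
  have h1 : W.valuation (algebraMap F E (b / a)) * W.valuation x ^ m = 1 := by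
    rw [map_mul, map_mul, map_pow, map_pow, pow_add] at heq
    rw [map_div₀, map_div₀, div_mul_eq_mul_div, div_eq_one_iff_eq hva]
    have hxi : W.valuation x ^ i ≠ 0 := pow_ne_zero _ hvx
    have : W.valuation (algebraMap F E a) * W.valuation x ^ i =
        W.valuation (algebraMap F E b) * W.valuation x ^ m * W.valuation x ^ i := by
      rw [heq, mul_assoc, mul_comm (W.valuation x ^ m)]
    exact (mul_right_cancel₀ hxi this).symm
  obtain ⟨c, hc⟩ := hscal (b / a) (div_ne_zero hb ha)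
  have hc' : W.valuation (algebraMap F E (jL c)) * W.valuation (algebraMap F E (b / a)) = 1 := by
    rw [← map_mul, ← map_mul, val_eq_one_iff hVW]
    exact hc
  have hc0 : c ≠ 0 := by
    rintro rfl
    rw [map_zero, map_zero, map_zero, zero_mul] at hc'
    exact zero_ne_one hc'
  obtain ⟨d, hd⟩ := IsAlgClosed.exists_pow_nat_eq c⁻¹ hm
  have hd0 : d ≠ 0 := by
    rintro rfl
    rw [zero_pow hm.ne'] at hd
    exact inv_ne_zero hc0 hd.symm
  refine ⟨d, ?_⟩
  have hcd : algebraMap F E (jL c) * algebraMap F E (jL d) ^ m = 1 := by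
    rw [← map_pow, ← map_pow, hd, ← map_mul, ← map_mul, mul_inv_cancel₀ hc0, map_one, map_one]
  have h2 : (W.valuation (algebraMap F E (jL d) * x)) ^ m = 1 := by
    rw [map_mul, mul_pow]
    have h3 := congrArg W.valuation hcd
    rw [map_mul, map_pow, map_one] at h3
    -- v(c) v(d)^m = 1, v(c) v(b/a) = 1, v(b/a) v(x)^m = 1
    have hvc : W.valuation (algebraMap F E (jL c)) ≠ 0 := by
      intro h0
      rw [h0, zero_mul] at hc'
      exact zero_ne_one hc'
    have e1 : W.valuation (algebraMap F E (jL d)) ^ m = W.valuation (algebraMap F E (b / a)) :=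
      mul_left_cancel₀ hvc (by rw [h3, hc'])
    rw [e1, h1]
  exact (pow_eq_one_iff_of_nonneg zero_le hm.ne').mp h2

/-- **(scal_lift)** (Sc) passes to algebraic extensions when the constants are algebraically
closed. -/
theorem scal_lift [IsAlgClosed L] [Algebra.IsAlgebraic F E] (jL : L →+* F)
    (hVW : ∀ e : F, algebraMap F E e ∈ W ↔ e ∈ V)
    (hscal : ∀ x : F, x ≠ 0 → ∃ c : L, V.valuation (jL c * x) = 1) :
    ∀ x : E, x ≠ 0 → ∃ c : L, W.valuation (algebraMap F E (jL c) * x) = 1 := by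
  intro x hx
  obtain ⟨p, hp0, hpx⟩ := Algebra.IsAlgebraic.isAlgebraic (R := F) x
  have hsum : ∑ i ∈ p.support, algebraMap F E (p.coeff i) * x ^ i = 0 := by
    rw [← hpx, Polynomial.aeval_def, Polynomial.eval₂_eq_sum, Polynomial.sum_def]
  set t : ℕ → E := fun i => algebraMap F E (p.coeff i) * x ^ i with ht
  have ht0 : ∀ i ∈ p.support, t i ≠ 0 := fun i hi =>
    mul_ne_zero ((map_ne_zero _).mpr (Polynomial.mem_support_iff.mp hi)) (pow_ne_zero _ hx)
  have hne : p.support.Nonempty := Polynomial.support_nonempty.mpr hp0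
  obtain ⟨i0, hi0, hmax⟩ := Finset.exists_max_image p.support (fun i => W.valuation (t i)) hne
  -- a second index with the same valuation
  have hex : ∃ i1 ∈ p.support, i1 ≠ i0 ∧ W.valuation (t i1) = W.valuation (t i0) := by
    by_contra hcon
    push Not at hcon
    have hlt : ∀ i ∈ p.support.erase i0, W.valuation (t i) < W.valuation (t i0) := by
      intro i hi
      obtain ⟨hne', hmem⟩ := Finset.mem_erase.mp hi
      exact lt_of_le_of_ne (hmax i hmem) (hcon i hmem hne')
    have hv0 : W.valuation (t i0) ≠ 0 := (Valuation.ne_zero_iff _).mpr (ht0 i0 hi0)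
    have hrest : W.valuation (∑ i ∈ p.support.erase i0, t i) < W.valuation (t i0) :=
      Valuation.map_sum_lt _ hv0 hlt
    have hsplit : t i0 + ∑ i ∈ p.support.erase i0, t i = 0 := by
      rw [Finset.add_sum_erase _ _ hi0]
      exact hsum
    have := congrArg W.valuation hsplit
    rw [Valuation.map_add_eq_of_lt_left _ hrest, map_zero] at this
    exact hv0 this
  obtain ⟨i1, hi1, hne1, heq⟩ := hex
  have hc0 : p.coeff i0 ≠ 0 := Polynomial.mem_support_iff.mp hi0
  have hc1 : p.coeff i1 ≠ 0 := Polynomial.mem_support_iff.mp hi1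
  rcases lt_or_gt_of_ne hne1 with hlt | hgt
  · exact exists_const_of_monomials jL hVW hscal hx hc1 hc0 hlt heq
  · exact exists_const_of_monomials jL hVW hscal hx hc0 hc1 hgt heq.symm

/-! ### (K) lifts -/

/-- **(const_lift)** (K) and (D) downstairs, together with `o = o_s` on `R_s`, give (K)
upstairs. -/
theorem const_lift (jL : L →+* F) (hVW : ∀ e : F, algebraMap F E e ∈ W ↔ e ∈ V)
    {Rs : Subring F} {R : Subring E} {os : F → ℤ} {o : E → ℤ}
    (hRs : ∀ r ∈ Rs, algebraMap F E r ∈ R)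
    (hoo : ∀ r ∈ Rs, V.valuation r = 1 → o (algebraMap F E r) = os r)
    (hdense : ∀ x : F, V.valuation x = 1 → ∃ r1 ∈ Rs, ∃ r2 ∈ Rs, V.valuation r1 = 1 ∧
      V.valuation r2 = 1 ∧ V.valuation (x * r2 - r1) < 1)
    (hconst : ∀ c : L, V.valuation (jL c) = 1 → ∀ r1 ∈ Rs, ∀ r2 ∈ Rs, V.valuation r1 = 1 →
      V.valuation r2 = 1 → V.valuation (jL c * r2 - r1) < 1 → os r1 = os r2)
    (ho_mul : ∀ r ∈ R, ∀ r' ∈ R, W.valuation r = 1 → W.valuation r' = 1 →
      o (r * r') = o r + o r')
    (ho_congr : ∀ r ∈ R, ∀ r' ∈ R, W.valuation r = 1 → W.valuation r' = 1 →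
      W.valuation (r - r') < 1 → o r = o r') :
    ∀ c : L, W.valuation (algebraMap F E (jL c)) = 1 → ∀ r1 ∈ R, ∀ r2 ∈ R,
      W.valuation r1 = 1 → W.valuation r2 = 1 →
      W.valuation (algebraMap F E (jL c) * r2 - r1) < 1 → o r1 = o r2 := by
  intro c hc r1 hr1 r2 hr2 hv1 hv2 happ
  have hcV : V.valuation (jL c) = 1 := (val_eq_one_iff hVW _).mp hc
  obtain ⟨ρ1, hρ1, ρ2, hρ2, hw1, hw2, hρ⟩ := hdense _ hcV
  have hos : os ρ1 = os ρ2 := hconst c hcV ρ1 hρ1 ρ2 hρ2 hw1 hw2 hρ
  have hW1 : W.valuation (algebraMap F E ρ1) = 1 := (val_eq_one_iff hVW _).mpr hw1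
  have hW2 : W.valuation (algebraMap F E ρ2) = 1 := (val_eq_one_iff hVW _).mpr hw2
  have hρW : W.valuation (algebraMap F E (jL c) * algebraMap F E ρ2 - algebraMap F E ρ1) < 1 := by
    rw [← map_mul, ← map_sub, val_lt_one_iff hVW]
    exact hρ
  have hkey : W.valuation (algebraMap F E ρ1 * r2 - r1 * algebraMap F E ρ2) < 1 := by
    have e : algebraMap F E ρ1 * r2 - r1 * algebraMap F E ρ2 =
        -(r2 * (algebraMap F E (jL c) * algebraMap F E ρ2 - algebraMap F E ρ1)) +
          algebraMap F E ρ2 * (algebraMap F E (jL c) * r2 - r1) := by ring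
    rw [e]
    exact val_add_lt_one (val_neg_lt_one (val_mul_lt_one_left hv2.le hρW))
      (val_mul_lt_one_left hW2.le happ)
  have h1 := ho_congr _ (R.mul_mem (hRs ρ1 hρ1) hr2) _ (R.mul_mem hr1 (hRs ρ2 hρ2))
    (val_mul_eq_one hW1 hv2) (val_mul_eq_one hv1 hW2) hkey
  rw [ho_mul _ (hRs ρ1 hρ1) _ hr2 hW1 hv2, ho_mul _ hr1 _ (hRs ρ2 hρ2) hv1 hW2,
    hoo ρ1 hρ1 hw1, hoo ρ2 hρ2 hw2] at h1
  omega

/-! ### restriction of slopes -/

/-- the restriction of a slope function to the subfield is a slope function -/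
theorem isSlope_restrict (jL : L →+* F) (hVW : ∀ e : F, algebraMap F E e ∈ W ↔ e ∈ V)
    {sl : E → ℤ} (h : IsSlope ((algebraMap F E).comp jL) W sl) :
    IsSlope jL V (fun x => sl (algebraMap F E x)) := by
  refine ⟨?_, ?_, ?_, ?_⟩
  · show sl (algebraMap F E 0) = 0
    rw [map_zero, h.map_zero]
  · intro f g hf hg
    show sl (algebraMap F E (f * g)) = sl (algebraMap F E f) + sl (algebraMap F E g)
    rw [map_mul, h.map_mul _ _ ((map_ne_zero _).mpr hf) ((map_ne_zero _).mpr hg)]
  · intro c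
    exact h.map_const c
  · intro f hf
    show sl (algebraMap F E f) = 0
    apply h.map_near_one
    rw [← map_one (algebraMap F E), ← map_sub, val_lt_one_iff hVW]
    exact hf

/-- **(restrict)** the restriction of the slope upstairs is THE slope downstairs -/
theorem restrict_eq (jL : L →+* F) (hVW : ∀ e : F, algebraMap F E e ∈ W ↔ e ∈ V)
    {Rs : Subring F} {sl : E → ℤ} {sls : F → ℤ}
    (h : IsSlope ((algebraMap F E).comp jL) W sl) (hs : IsSlope jL V sls)
    (hdense : ∀ x : F, V.valuation x = 1 → ∃ r1 ∈ Rs, ∃ r2 ∈ Rs, V.valuation r1 = 1 ∧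
      V.valuation r2 = 1 ∧ V.valuation (x * r2 - r1) < 1)
    (hscal : ∀ x : F, x ≠ 0 → ∃ c : L, V.valuation (jL c * x) = 1)
    (heq : ∀ r ∈ Rs, V.valuation r = 1 → sl (algebraMap F E r) = sls r) (x : F) :
    sl (algebraMap F E x) = sls x :=
  congrFun (IsSlope.eq_of_eqOn (R := Rs) (isSlope_restrict jL hVW h) hs hdense hscal heq) x

/-- **lifting a side datum**: a side datum downstairs, (o1), (o2), (D) upstairs and the
compatibility `o = o_s` on `R_s` give a side datum upstairs. -/
theorem sideDatum_lift [IsAlgClosed L] [Algebra.IsAlgebraic F E] (jL : L →+* F)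
    (hVW : ∀ e : F, algebraMap F E e ∈ W ↔ e ∈ V)
    {Rs : Subring F} {R : Subring E} {os : F → ℤ} {o : E → ℤ}
    (hs : SideDatum jL V Rs os)
    (hRs : ∀ r ∈ Rs, algebraMap F E r ∈ R)
    (hoo : ∀ r ∈ Rs, V.valuation r = 1 → o (algebraMap F E r) = os r)
    (ho_mul : ∀ r ∈ R, ∀ r' ∈ R, W.valuation r = 1 → W.valuation r' = 1 →
      o (r * r') = o r + o r')
    (ho_congr : ∀ r ∈ R, ∀ r' ∈ R, W.valuation r = 1 → W.valuation r' = 1 →
      W.valuation (r - r') < 1 → o r = o r')
    (hdense : ∀ x : E, W.valuation x = 1 → ∃ r1 ∈ R, ∃ r2 ∈ R, W.valuation r1 = 1 ∧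
      W.valuation r2 = 1 ∧ W.valuation (x * r2 - r1) < 1) :
    SideDatum ((algebraMap F E).comp jL) W R o where
  o_mul := ho_mul
  o_congr := ho_congr
  dense := hdense
  scal := scal_lift jL hVW hs.scal
  const := const_lift jL hVW hRs hoo hs.dense hs.const ho_mul ho_congr

end Fermat.Agent.S40x.R2.SlopeB.Lift
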