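/-
helper12 (P-S44, block C3, leaf C3-SLOPE, assembled per-node statements).

`SlopeB` fed into helper22's landed `S40x/R2/Asm/Core`, with `n := slopeAt …` (helper47's slope of
the class `x` at the place `P` of the residue field):

* `node_slope` : at a node, `slopeAt O₁ O₂ O R.res p x P = wzero ft - winf ft` in `ZMod p`;
* `smooth_slope` : at a smooth point, `slopeAt O₁ O₂ O R.res p x P = 0`.

Inputs: a `RedSetup` downstairs with (D) for the node ring `Rs ≤ F`; upstairs the cover field `E`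
(over the algebraically closed constants), `W` over `O`, a subring `R' ≤ W` containing `Rs` and the
image of the node ring `Rn` (a TYPE, UFD, with fraction field `E0`, `ι : E0 →+* E`), an order
function `o` on `R'` with (o1), (o2), (o3), `o = ordAt` on `Rs`, and `θ ∈ R'` with conjugates in `W`
pairwise different modulo the maximal ideal; the descended Kummer function `ft ∈ E0` with
`ι ft = c * fx * g ^ p`; the divisibility `H` of the horizontal multiplicities (C3-CFE).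
-/
import Fermat.Agent.S40x.R2.SlopeB.AsmAdapter
import Fermat.Agent.S40x.R2.SlopeB.PlaceInst
import Fermat.Agent.S40x.R2.Asm.Core

set_option autoImplicit false
set_option linter.unusedSectionVars false

namespace Fermat.Agent.S40x.R2.SlopeB.NodeSlope

open AlgebraicCurve Fermat.Agent.Gateway.Kummer Fermat.Agent.Gateway.C0
  Fermat.Agent.S40x.Slope.SlopeInv Fermat.Agent.S40x.R2.Transitive
  Fermat.Agent.S40x.R2.SlopeB.Side Fermat.Agent.S40x.R2.SlopeB.Main
  Fermat.Agent.S40x.R2.SlopeB.PlaceInst Fermat.Agent.S40x.R2.SlopeB.AsmAdapter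

variable {L : Type*} [Field L] [IsAlgClosed L] {F : Type*} [Field F] [Algebra L F]
  [HasPrincipalDivisors L F]
  {k : Type*} [Field k] {Eκ : Type*} [Field Eκ] [Algebra k Eκ]
  {A : ValuationSubring L} {O₁ O₂ O : ValuationSubring F}
variable {E : Type*} [Field E] [Algebra F E] {W : ValuationSubring E}
variable {G : Type*} [Group G] [Fintype G] [MulSemiringAction G E] [SMulCommClass G F E]
  [Algebra.IsInvariant F E G]
variable {E0 : Type*} [Field E0] {Rn : Type*} [CommRing Rn] [IsDomain Rn]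
  [UniqueFactorizationMonoid Rn] [Algebra Rn E0] [IsFractionRing Rn E0]

/-- **the slope at a node** from the instance data. -/
theorem node_slope (R : RedSetup A O k Eκ) (P : Place k Eκ) {p : ℕ}
    (hS : SlopeData (L := L) O₁ O₂ O R.res p)
    {Rs : Subring F}
    (hdense : ∀ x : F, O.valuation x = 1 → ∃ r1 ∈ Rs, ∃ r2 ∈ Rs, O.valuation r1 = 1 ∧
      O.valuation r2 = 1 ∧ O.valuation (x * r2 - r1) < 1)
    -- upstairs
    (hVW : ∀ e : F, algebraMap F E e ∈ W ↔ e ∈ O)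
    {R' : Subring E} {o : E → ℤ}
    (hRs : ∀ r ∈ Rs, algebraMap F E r ∈ R')
    (hoo : ∀ r ∈ Rs, O.valuation r = 1 → o (algebraMap F E r) = ordAt O R.res P r)
    (ho_mul : ∀ r ∈ R', ∀ r' ∈ R', W.valuation r = 1 → W.valuation r' = 1 →
      o (r * r') = o r + o r')
    (ho_congr : ∀ r ∈ R', ∀ r' ∈ R', W.valuation r = 1 → W.valuation r' = 1 →
      W.valuation (r - r') < 1 → o r = o r')
    (hle : ∀ r ∈ R', r ∈ W) (hnn : ∀ r ∈ R', W.valuation r = 1 → 0 ≤ o r)
    {θ : E} (hθR : θ ∈ R') (hθ : ∀ g : G, g • θ ∈ W)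
    (hθu : ∀ g g' : G, g ≠ g' → W.valuation (g • θ - g' • θ) = 1)
    -- the node ring
    (ι : E0 →+* E) (hR : ∀ r : Rn, ι (algebraMap Rn E0 r) ∈ R')
    {u u' : Rn} (hu : Prime u) (hu' : Prime u') {Ψ : Rnˣ} {c₀ : L} (hc₀ : c₀ ≠ 0)
    (hvu' : W.valuation (ι (algebraMap Rn E0 u')) = 1) (hou' : o (ι (algebraMap Rn E0 u')) = 1)
    (hrel : ι (algebraMap Rn E0 (u * u')) =
      algebraMap F E (algebraMap L F c₀) * ι (algebraMap Rn E0 Ψ))
    (hndvd : ¬ u ∣ u') (hndvd' : ¬ u' ∣ u)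
    {Winf Wzero : ValuationSubring E0} {winf wzero : E0 → ℤ}
    (hwinf : IsOrd Winf winf) (hwzero : IsOrd Wzero wzero)
    (hinf_u : winf (algebraMap Rn E0 u) = 1)
    (hinf_0 : ∀ r : Rn, ¬ u ∣ r → winf (algebraMap Rn E0 r) = 0)
    (hzero_u' : wzero (algebraMap Rn E0 u') = 1)
    (hzero_0 : ∀ r : Rn, ¬ u' ∣ r → wzero (algebraMap Rn E0 r) = 0)
    -- the Kummer functions
    {x : Pic0 L F} {fx : F} (hfx : IsKummerRep p x fx) {c : L} (hc : c ≠ 0) {g : E} (hg : g ≠ 0)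
    {ft : E0} (hft : ft ≠ 0)
    (hftx : ι ft = algebraMap F E (algebraMap L F c) * algebraMap F E fx * g ^ p)
    (H : ∀ h : Rn, Prime h → ¬ Associated h u → ¬ Associated h u' →
      ∀ f1 f2 : Rn, f2 ≠ 0 → ft * algebraMap Rn E0 f2 = algebraMap Rn E0 f1 →
      ∀ n1 n2 : ℕ, h ^ n1 ∣ f1 → ¬ h ^ (n1 + 1) ∣ f1 → h ^ n2 ∣ f2 → ¬ h ^ (n2 + 1) ∣ f2 →
        (p : ℤ) ∣ (n1 : ℤ) - n2) :
    slopeAt O₁ O₂ O R.res p x P = ((wzero ft - winf ft : ℤ) : ZMod p) := by
  have hs : SideDatum (algebraMap L F) O Rs (ordAt O R.res P) :=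
    sideDatum_of_redSetup R P Rs hdense
  have hD : SideDatum ((algebraMap F E).comp (algebraMap L F)) W R' o :=
    sideDatum_upstairs (G := G) (algebraMap L F) hVW hs hRs hoo ho_mul ho_congr hθR hθ hθu
  rw [slopeAt_eq_slope hS hs hfx]
  exact Asm.node_slope_eq hS.pos.ne' hu hu' hwinf hwzero hinf_u hinf_0 hzero_u' hzero_0 hndvd
    hndvd' hft H _
    (hsl_node (algebraMap L F) hVW hs hD hRs hoo hle hnn ι (IsFractionRing.injective Rn E0) hR hc₀
      hu.ne_zero hvu' hou' hrel hfx.ne_zero hc hg hftx)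

/-- **the slope at a smooth point** from the instance data (the vertical prime `π` of the
smooth-point ring is the constant `c₀`, in the application `p`). -/
theorem smooth_slope (R : RedSetup A O k Eκ) (P : Place k Eκ) {p : ℕ}
    (hS : SlopeData (L := L) O₁ O₂ O R.res p)
    {Rs : Subring F}
    (hdense : ∀ x : F, O.valuation x = 1 → ∃ r1 ∈ Rs, ∃ r2 ∈ Rs, O.valuation r1 = 1 ∧
      O.valuation r2 = 1 ∧ O.valuation (x * r2 - r1) < 1)
    (hVW : ∀ e : F, algebraMap F E e ∈ W ↔ e ∈ O)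
    {R' : Subring E} {o : E → ℤ}
    (hRs : ∀ r ∈ Rs, algebraMap F E r ∈ R')
    (hoo : ∀ r ∈ Rs, O.valuation r = 1 → o (algebraMap F E r) = ordAt O R.res P r)
    (ho_mul : ∀ r ∈ R', ∀ r' ∈ R', W.valuation r = 1 → W.valuation r' = 1 →
      o (r * r') = o r + o r')
    (ho_congr : ∀ r ∈ R', ∀ r' ∈ R', W.valuation r = 1 → W.valuation r' = 1 →
      W.valuation (r - r') < 1 → o r = o r')
    (hle : ∀ r ∈ R', r ∈ W) (hnn : ∀ r ∈ R', W.valuation r = 1 → 0 ≤ o r)
    {θ : E} (hθR : θ ∈ R') (hθ : ∀ g : G, g • θ ∈ W)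
    (hθu : ∀ g g' : G, g ≠ g' → W.valuation (g • θ - g' • θ) = 1)
    (ι : E0 →+* E) (hR : ∀ r : Rn, ι (algebraMap Rn E0 r) ∈ R')
    {π : Rn} (hπ : Prime π) {c₀ : L} (hc₀ : c₀ ≠ 0)
    (hπc : ι (algebraMap Rn E0 π) = algebraMap F E (algebraMap L F c₀))
    {x : Pic0 L F} {fx : F} (hfx : IsKummerRep p x fx) {c : L} (hc : c ≠ 0) {g : E} (hg : g ≠ 0)
    {ft : E0} (hft : ft ≠ 0)
    (hftx : ι ft = algebraMap F E (algebraMap L F c) * algebraMap F E fx * g ^ p)
    (H : ∀ h : Rn, Prime h → ¬ Associated h π →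
      ∀ f1 f2 : Rn, f2 ≠ 0 → ft * algebraMap Rn E0 f2 = algebraMap Rn E0 f1 →
      ∀ n1 n2 : ℕ, h ^ n1 ∣ f1 → ¬ h ^ (n1 + 1) ∣ f1 → h ^ n2 ∣ f2 → ¬ h ^ (n2 + 1) ∣ f2 →
        (p : ℤ) ∣ (n1 : ℤ) - n2) :
    slopeAt O₁ O₂ O R.res p x P = 0 := by
  have hs : SideDatum (algebraMap L F) O Rs (ordAt O R.res P) :=
    sideDatum_of_redSetup R P Rs hdense
  have hD : SideDatum ((algebraMap F E).comp (algebraMap L F)) W R' o :=
    sideDatum_upstairs (G := G) (algebraMap L F) hVW hs hRs hoo ho_mul ho_congr hθR hθ hθu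
  rw [slopeAt_eq_slope hS hs hfx]
  exact Asm.smooth_slope_eq_zero hS.pos.ne' hπ hft H _
    (hsl_smooth (algebraMap L F) hVW hs hD hRs hoo hle hnn ι (IsFractionRing.injective Rn E0) hR
      hc₀ hπc hfx.ne_zero hc hg hftx)

end Fermat.Agent.S40x.R2.SlopeB.NodeSlope
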